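import Mathlib
import Fermat.Prelude.Def_ModularCurve_HeckeOperator

set_option autoImplicit false

/-!
# The Kummer model `V_m(F)` of `J[m]`

Shared definitions of project GAL (blueprint: `projects.plan` of GAL).

* `kummerUnits K F m` : units of `F` whose divisor is divisible by `m`;
* `KV K F m` : `kummerUnits` modulo `m`-th powers, written additively;
* `KV.map` : functoriality;
* action of `SemilinearAut K F`, hence of `L ≃ₐ[ℚ] L` on `KV L (laurentBaseChange L F₀) m`;
* `heckeNorm L M ℓ = Norm_α ∘ β`, `heckeT L M ℓ m : KV → KV`.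
-/

noncomputable section

namespace Fermat.Agent.GAL

open AlgebraicCurve ModularCurve

section General

variable (K F : Type*) [Field K] [Field F] [Algebra K F]

/-- Units of `F` whose order at every place is divisible by `m`. -/
def kummerUnits (m : ℕ) : Subgroup Fˣ where
  carrier := {u | ∀ P : Place K F, (m : ℤ) ∣ P.ord (u : F)}
  one_mem' := fun P => by simp
  mul_mem' := by
    intro a b ha hb P
    rw [Units.val_mul, P.ord_mul a.ne_zero b.ne_zero]
    exact dvd_add (ha P) (hb P)
  inv_mem' := by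
    intro a ha P
    rw [Units.val_inv_eq_inv_val, P.ord_inv]
    exact (dvd_neg).mpr (ha P)

variable {K F}

theorem mem_kummerUnits {m : ℕ} {u : Fˣ} :
    u ∈ kummerUnits K F m ↔ ∀ P : Place K F, (m : ℤ) ∣ P.ord (u : F) := Iff.rfl

theorem pow_mem_kummerUnits (m : ℕ) (u : Fˣ) : u ^ m ∈ kummerUnits K F m := by
  intro P
  have h := P.ord_zpow (u : F) (m : ℤ)
  rw [zpow_natCast] at h
  rw [Units.val_pow_eq_pow_val, h]
  exact dvd_mul_right _ _

variable (K F)

/-- The subgroup of `m`-th powers inside `kummerUnits`. -/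
def kummerPowers (m : ℕ) : Subgroup (kummerUnits K F m) :=
  ((powMonoidHom m : Fˣ →* Fˣ).range).subgroupOf (kummerUnits K F m)

/-- The Kummer model `V_m(F) = {u : m ∣ div u} / F^{× m}`, written additively. -/
def KV (m : ℕ) : Type _ := Additive (kummerUnits K F m ⧸ kummerPowers K F m)

instance (m : ℕ) : AddCommGroup (KV K F m) :=
  inferInstanceAs (AddCommGroup (Additive (kummerUnits K F m ⧸ kummerPowers K F m)))

variable {K F}

/-- The class of a Kummer unit. -/
def KV.mk {m : ℕ} (u : kummerUnits K F m) : KV K F m :=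
  Additive.ofMul (QuotientGroup.mk u)

theorem KV.mk_surjective {m : ℕ} : Function.Surjective (KV.mk (K := K) (F := F) (m := m)) := by
  intro x
  obtain ⟨u, hu⟩ := QuotientGroup.mk_surjective (Additive.toMul x)
  exact ⟨u, by rw [KV.mk, hu]; rfl⟩

theorem KV.mk_mul {m : ℕ} (u v : kummerUnits K F m) : KV.mk (u * v) = KV.mk u + KV.mk v := rfl

theorem KV.mk_one {m : ℕ} : KV.mk (1 : kummerUnits K F m) = 0 := rfl

theorem KV.mk_inv {m : ℕ} (u : kummerUnits K F m) : KV.mk u⁻¹ = - KV.mk u := rfl

theorem KV.mk_pow {m : ℕ} (u : kummerUnits K F m) (n : ℕ) : KV.mk (u ^ n) = n • KV.mk u := rfl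

theorem KV.mk_eq_zero_iff {m : ℕ} (u : kummerUnits K F m) :
    KV.mk u = 0 ↔ ∃ y : Fˣ, y ^ m = (u : Fˣ) := by
  have h1 : KV.mk u = 0 ↔ (QuotientGroup.mk u : kummerUnits K F m ⧸ kummerPowers K F m) = 1 :=
    Iff.rfl
  rw [h1, QuotientGroup.eq_one_iff, kummerPowers, Subgroup.mem_subgroupOf, MonoidHom.mem_range]
  rfl

theorem KV.mk_eq_mk_iff {m : ℕ} (u v : kummerUnits K F m) :
    KV.mk u = KV.mk v ↔ ∃ y : Fˣ, y ^ m * (v : Fˣ) = (u : Fˣ) := by
  rw [← sub_eq_zero, sub_eq_add_neg, ← KV.mk_inv, ← KV.mk_mul, KV.mk_eq_zero_iff]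
  refine exists_congr fun y => ?_
  rw [Subgroup.coe_mul, Subgroup.coe_inv, eq_mul_inv_iff_mul_eq]

theorem KV.nsmul_eq_zero {m : ℕ} (x : KV K F m) : m • x = 0 := by
  obtain ⟨u, rfl⟩ := KV.mk_surjective x
  rw [← KV.mk_pow, KV.mk_eq_zero_iff]
  exact ⟨u, rfl⟩

section Map

variable {K' F' : Type*} [Field K'] [Field F'] [Algebra K' F'] {m : ℕ}

/-- A homomorphism of unit groups preserving Kummer units, restricted to them. -/
def kummerMap (φ : Fˣ →* F'ˣ) (h : ∀ u ∈ kummerUnits K F m, φ u ∈ kummerUnits K' F' m) :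
    kummerUnits K F m →* kummerUnits K' F' m :=
  (φ.comp (kummerUnits K F m).subtype).codRestrict _ (fun u => h u u.2)

/-- Functoriality of `KV`. -/
def KV.map (φ : Fˣ →* F'ˣ) (h : ∀ u ∈ kummerUnits K F m, φ u ∈ kummerUnits K' F' m) :
    KV K F m →+ KV K' F' m :=
  MonoidHom.toAdditive (QuotientGroup.map (kummerPowers K F m) (kummerPowers K' F' m)
    (kummerMap φ h) (by
      rintro ⟨u, hu⟩ ⟨y, hy⟩
      refine ⟨φ y, ?_⟩
      have hy' : y ^ m = u := hy
      show φ y ^ m = φ u
      rw [← map_pow, hy']))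

theorem KV.map_mk (φ : Fˣ →* F'ˣ) (h : ∀ u ∈ kummerUnits K F m, φ u ∈ kummerUnits K' F' m)
    (u : kummerUnits K F m) : KV.map φ h (KV.mk u) = KV.mk ⟨φ u, h u u.2⟩ := rfl

end Map

section Semilinear

variable {m : ℕ}

/-- The action of a semilinear automorphism on units. -/
def semilinearUnits (g : SemilinearAut K F) : Fˣ →* Fˣ :=
  Units.map ((SemilinearAut.toRingAut g : F ≃+* F) : F →* F)

theorem coe_semilinearUnits (g : SemilinearAut K F) (u : Fˣ) :
    ((semilinearUnits g u : Fˣ) : F) = g • (u : F) := rfl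

theorem semilinearUnits_mem (g : SemilinearAut K F) (u : Fˣ) (hu : u ∈ kummerUnits K F m) :
    semilinearUnits g u ∈ kummerUnits K F m := by
  intro P
  have h := SemilinearAut.ord_smul g (g⁻¹ • P) (u : F)
  rw [smul_inv_smul] at h
  rw [coe_semilinearUnits, h]
  exact hu _

instance : SMul (SemilinearAut K F) (KV K F m) where
  smul g x := KV.map (semilinearUnits g) (semilinearUnits_mem g) x

theorem KV.semilinear_smul_def (g : SemilinearAut K F) (x : KV K F m) :
    g • x = KV.map (semilinearUnits g) (semilinearUnits_mem g) x := rfl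

theorem KV.semilinear_smul_mk (g : SemilinearAut K F) (u : kummerUnits K F m) :
    g • KV.mk u = KV.mk ⟨semilinearUnits g u, semilinearUnits_mem g u u.2⟩ := rfl

instance : DistribMulAction (SemilinearAut K F) (KV K F m) where
  one_smul x := by
    obtain ⟨u, rfl⟩ := KV.mk_surjective x
    rw [KV.semilinear_smul_mk]
    congr 1
  mul_smul g h x := by
    obtain ⟨u, rfl⟩ := KV.mk_surjective x
    rw [KV.semilinear_smul_mk, KV.semilinear_smul_mk, KV.semilinear_smul_mk]
    congr 1
  smul_zero g := map_zero _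
  smul_add g x y := map_add _ x y

end Semilinear

/-- The norm along an algebra homomorphism. -/
def normAlong {F' : Type*} [Field F'] [Algebra K F'] (φ : F →ₐ[K] F') : F' →* F :=
  letI := algebraAlong φ
  Algebra.norm F

end General

section Modular

variable (L : Type*) [Field L] [Algebra ℚ L]

/-- The function field `L(j(q^d) : d ∣ M)` inside `L((q))`. -/
abbrev FF (M : ℕ) : IntermediateField L (LaurentSeries L) :=
  laurentBaseChange L (modularFunctionFieldFull M)

variable {L} in
instance instGaloisKV (F₀ : IntermediateField ℚ (LaurentSeries ℚ)) (m : ℕ) :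
    DistribMulAction (L ≃ₐ[ℚ] L) (KV L (laurentBaseChange L F₀) m) :=
  DistribMulAction.compHom _ (arithmeticGalois F₀)

variable {L} in
theorem KV.galois_smul_def (F₀ : IntermediateField ℚ (LaurentSeries ℚ)) (m : ℕ)
    (σ : L ≃ₐ[ℚ] L) (x : KV L (laurentBaseChange L F₀) m) :
    σ • x = arithmeticGalois F₀ σ • x := rfl

variable (M ℓ : ℕ) [NeZero M] [NeZero ℓ]

/-- The multiplicative Hecke operator `f ↦ Norm_α (β f)` on the function field of level `M`. -/
def heckeNorm : FF L M →* FF L M :=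
  (normAlong (heckeAlphaBar L M ℓ)).comp ((heckeBetaBar L M ℓ : FF L M →+* FF L (M * ℓ)) : _ →* _)

/-- The statement that `heckeNorm` preserves Kummer units. -/
def HeckeNormPreserves (m : ℕ) : Prop :=
  ∀ u ∈ kummerUnits L (FF L M) m, Units.map (heckeNorm L M ℓ) u ∈ kummerUnits L (FF L M) m

open Classical in
/-- The Hecke operator `T_ℓ` on `V_m(F_L(M))` (junk value `0` if `heckeNorm` did not preserve
Kummer units; see `HeckeNormPreserves`). -/
def heckeT (m : ℕ) : KV L (FF L M) m →+ KV L (FF L M) m :=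
  if h : HeckeNormPreserves L M ℓ m then KV.map (Units.map (heckeNorm L M ℓ)) h else 0

variable {L M ℓ} in
theorem heckeT_mk {m : ℕ} (h : HeckeNormPreserves L M ℓ m) (u : kummerUnits L (FF L M) m) :
    heckeT L M ℓ m (KV.mk u) = KV.mk ⟨Units.map (heckeNorm L M ℓ) u, h u u.2⟩ := by
  rw [heckeT, dif_pos h]
  rfl

end Modular

end Fermat.Agent.GAL
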