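import Mathlib
import Fermat.Prelude.Def_CuspForm_HeckeAlgebra
import Fermat.Prelude.Def_GaloisRep_Residual
import Fermat.Prelude.Def_GaloisRep_Adic

set_option autoImplicit false

namespace Fermat.Agent.GAL

/-- The absolute Galois group of `ℚ`. -/
abbrev GQ : Type := AlgebraicClosure ℚ ≃ₐ[ℚ] AlgebraicClosure ℚ

/-- Abstract Eichler-Shimura datum of level `N` at the prime `p`:
a lattice `ℤ^r` with commuting Hecke matrices `T ℓ`, an injective Hecke-equivariant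
"period" map from weight two cusp forms to `ℂ^r`, and a continuous action of `G_ℚ` on `ℤ_p^r`
commuting with the `T ℓ`, unramified outside `N p` and satisfying
`Frob ^ 2 - T ℓ * Frob + ℓ = 0`. -/
structure ESDatum (N p : ℕ) [NeZero N] [Fact p.Prime] where
  r : ℕ
  T : ℕ → Matrix (Fin r) (Fin r) ℤ
  T_comm : ∀ ℓ ℓ' : ℕ, T ℓ * T ℓ' = T ℓ' * T ℓ
  per : CuspForm (CongruenceSubgroup.Gamma0 N) 2 →ₗ[ℂ] (Fin r → ℂ)
  per_injective : Function.Injective per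
  per_T : ∀ (ℓ : ℕ) (hℓ : ℓ.Prime) (hℓN : ¬ ℓ ∣ N) (f : CuspForm (CongruenceSubgroup.Gamma0 N) 2),
    per (CuspForm.heckeTLin 2 hℓ hℓN f) = ((T ℓ).map (Int.castRingHom ℂ)).mulVec (per f)
  ρ : GQ →* Matrix (Fin r) (Fin r) ℤ_[p]
  ρ_T : ∀ (σ : GQ) (ℓ : ℕ),
    ρ σ * (T ℓ).map (Int.castRingHom ℤ_[p]) = (T ℓ).map (Int.castRingHom ℤ_[p]) * ρ σ
  ρ_cont : ∀ k : ℕ, ∃ F : IntermediateField ℚ (AlgebraicClosure ℚ), FiniteDimensional ℚ F ∧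
    ∀ σ : GQ, (∀ x ∈ F, σ x = x) → ∀ i j, (p : ℤ_[p]) ^ k ∣ (ρ σ - 1) i j
  ρ_unram : ∀ ℓ : ℕ, ℓ.Prime → ¬ ℓ ∣ N * p →
    ∀ A : ValuationSubring (AlgebraicClosure ℚ), A.LiesOverPrime ℓ →
      ∀ σ ∈ A.inertiaSubgroupIn ℚ, ρ σ = 1
  ρ_ES : ∀ ℓ : ℕ, ℓ.Prime → ¬ ℓ ∣ N * p →
    ∀ A : ValuationSubring (AlgebraicClosure ℚ), A.LiesOverPrime ℓ →
      ∀ σ : GQ, A.IsFrobeniusAt σ ℓ →
        ρ σ * ρ σ - (T ℓ).map (Int.castRingHom ℤ_[p]) * ρ σ + (ℓ : Matrix (Fin r) (Fin r) ℤ_[p]) = 0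

/-- **Frobenius density** (existence form): every element of a finite quotient of `G_ℚ` is a power
of a Frobenius element at a prime outside any given finite set. -/
def FrobeniusDensity : Prop :=
  ∀ (F : IntermediateField ℚ (AlgebraicClosure ℚ)), FiniteDimensional ℚ F →
    ∀ (g : GQ) (B : Finset ℕ),
      ∃ (ℓ : ℕ) (A : ValuationSubring (AlgebraicClosure ℚ)) (σ : GQ) (b : ℕ),
        ℓ.Prime ∧ ℓ ∉ B ∧ A.LiesOverPrime ℓ ∧ A.IsFrobeniusAt σ ℓ ∧ ∀ x ∈ F, (σ ^ b) x = g x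

end Fermat.Agent.GAL
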