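import Fermat.Agent.GAL.Model
import Fermat.Agent.GAL.Interface
import Fermat.Prelude.Thm_ModularCurve_coeffMap_qExpand

/-!
# Formal properties of the Kummer model `KV`

* `KV.red` : the transition maps `V_{m'} → V_m` (`m ∣ m'`), induced by the identity on units;
* equivariance of `KV.red` for semilinear automorphisms / the Galois action;
* `heckeNorm`, `heckeT` commute with the Galois action;
* stabilisers in `G_ℚ` of elements of `KV ℚ̄ (FF ℚ̄ N) m` are open.
-/

set_option autoImplicit false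

noncomputable section

namespace Fermat.Agent.GAL

open AlgebraicCurve ModularCurve

section Red

variable {K F : Type*} [Field K] [Field F] [Algebra K F]

theorem kummerUnits_le_of_dvd {m m' : ℕ} (h : m ∣ m') :
    kummerUnits K F m' ≤ kummerUnits K F m :=
  fun _ hu P => (Int.natCast_dvd_natCast.mpr h).trans (hu P)

/-- The transition map `V_{m'} → V_m`, `[u] ↦ [u]`. -/
def KV.red {m m' : ℕ} (h : m ∣ m') : KV K F m' →+ KV K F m :=
  MonoidHom.toAdditive (QuotientGroup.map (kummerPowers K F m') (kummerPowers K F m)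
    (Subgroup.inclusion (kummerUnits_le_of_dvd h)) (by
      rintro ⟨u, hu⟩ ⟨y, hy⟩
      obtain ⟨c, rfl⟩ := h
      refine ⟨y ^ c, ?_⟩
      have hy' : y ^ (m * c) = u := hy
      show (y ^ c) ^ m = u
      rw [← pow_mul, mul_comm c m, hy']))

theorem KV.red_mk {m m' : ℕ} (h : m ∣ m') (u : kummerUnits K F m') :
    KV.red h (KV.mk u) = KV.mk ⟨(u : Fˣ), kummerUnits_le_of_dvd h u.2⟩ := rfl

theorem KV.red_semilinear_smul {m m' : ℕ} (h : m ∣ m') (g : SemilinearAut K F)
    (x : KV K F m') : KV.red h (g • x) = g • KV.red h x := by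
  obtain ⟨u, rfl⟩ := KV.mk_surjective x
  rfl

end Red

section Galois

variable {L : Type*} [Field L] [Algebra ℚ L]

theorem KV.red_galois_smul (F₀ : IntermediateField ℚ (LaurentSeries ℚ)) {m m' : ℕ} (h : m ∣ m')
    (σ : L ≃ₐ[ℚ] L) (x : KV L (laurentBaseChange L F₀) m') :
    KV.red h (σ • x) = σ • KV.red h x :=
  KV.red_semilinear_smul h _ x

theorem KV.galois_smul_mk (F₀ : IntermediateField ℚ (LaurentSeries ℚ)) {m : ℕ}
    (σ : L ≃ₐ[ℚ] L) (u : kummerUnits L (laurentBaseChange L F₀) m) :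
    σ • KV.mk u = KV.mk ⟨semilinearUnits (arithmeticGalois F₀ σ) u,
      semilinearUnits_mem (arithmeticGalois F₀ σ) u u.2⟩ := rfl

variable (M ℓ : ℕ) [NeZero M] [NeZero ℓ]

theorem heckeAlphaBar_arithmeticRingAut (σ : L ≃ₐ[ℚ] L) (f : FF L M) :
    heckeAlphaBar L M ℓ (arithmeticRingAut (modularFunctionFieldFull M) σ f)
      = arithmeticRingAut (modularFunctionFieldFull (M * ℓ)) σ (heckeAlphaBar L M ℓ f) :=
  Subtype.ext (by
    rw [coe_heckeAlphaBar, coe_arithmeticRingAut_apply, coe_arithmeticRingAut_apply,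
      coe_heckeAlphaBar])

theorem heckeBetaBar_arithmeticRingAut (σ : L ≃ₐ[ℚ] L) (f : FF L M) :
    heckeBetaBar L M ℓ (arithmeticRingAut (modularFunctionFieldFull M) σ f)
      = arithmeticRingAut (modularFunctionFieldFull (M * ℓ)) σ (heckeBetaBar L M ℓ f) :=
  Subtype.ext (by
    rw [coe_heckeBetaBar, coe_arithmeticRingAut_apply, coe_arithmeticRingAut_apply,
      coe_heckeBetaBar, coeffMap_qExpand])

/-- `heckeNorm` commutes with the Galois action. -/
theorem heckeNorm_arithmeticRingAut (σ : L ≃ₐ[ℚ] L) (f : FF L M) :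
    heckeNorm L M ℓ (arithmeticRingAut (modularFunctionFieldFull M) σ f)
      = arithmeticRingAut (modularFunctionFieldFull M) σ (heckeNorm L M ℓ f) := by
  let _ := algebraAlong (heckeAlphaBar L M ℓ)
  have key := Algebra.norm_eq_of_equiv_equiv (A₁ := FF L M) (B₁ := FF L (M * ℓ))
    (A₂ := FF L M) (B₂ := FF L (M * ℓ))
    (arithmeticRingAut (modularFunctionFieldFull M) σ)
    (arithmeticRingAut (modularFunctionFieldFull (M * ℓ)) σ)
    (RingHom.ext fun x => heckeAlphaBar_arithmeticRingAut M ℓ σ x) (heckeBetaBar L M ℓ f)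
  have h1 : heckeNorm L M ℓ f = Algebra.norm (FF L M) (heckeBetaBar L M ℓ f) := rfl
  have h2 : heckeNorm L M ℓ (arithmeticRingAut (modularFunctionFieldFull M) σ f)
      = Algebra.norm (FF L M)
        (heckeBetaBar L M ℓ (arithmeticRingAut (modularFunctionFieldFull M) σ f)) := rfl
  rw [h1, h2, key, RingEquiv.apply_symm_apply, heckeBetaBar_arithmeticRingAut]

/-- `heckeT` commutes with the Galois action. -/
theorem heckeT_galois_smul (m : ℕ) (σ : L ≃ₐ[ℚ] L) (x : KV L (FF L M) m) :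
    heckeT L M ℓ m (σ • x) = σ • heckeT L M ℓ m x := by
  by_cases h : HeckeNormPreserves L M ℓ m
  · obtain ⟨u, rfl⟩ := KV.mk_surjective x
    rw [heckeT_mk h, KV.galois_smul_mk, KV.galois_smul_mk, heckeT_mk h]
    congr 1
    apply Subtype.ext
    apply Units.ext
    exact heckeNorm_arithmeticRingAut M ℓ σ _
  · rw [heckeT, dif_neg h]
    simp

end Galois

section Stab

/-- Every element of `ℚ̄(j(q^d))` is fixed by an open subgroup of `G_ℚ`. -/
theorem exists_stab_laurentBaseChange (F₀ : IntermediateField ℚ (LaurentSeries ℚ))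
    {x : LaurentSeries (AlgebraicClosure ℚ)} (hx : x ∈ laurentBaseChange (AlgebraicClosure ℚ) F₀) :
    ∃ E : IntermediateField ℚ (AlgebraicClosure ℚ), FiniteDimensional ℚ E ∧
      ∀ σ : GQ, (∀ y ∈ E, σ y = y) →
        coeffMap (σ : AlgebraicClosure ℚ →+* AlgebraicClosure ℚ) x = x := by
  rw [mem_laurentBaseChange_iff] at hx
  induction hx using Subfield.closure_induction with
  | mem y hy =>
      rcases hy with ⟨a, rfl⟩ | ⟨z, _, rfl⟩
      · have : Algebra.IsAlgebraic ℚ (AlgebraicClosure ℚ) := AlgebraicClosure.isAlgebraic ℚ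
        refine ⟨IntermediateField.adjoin ℚ {a},
          IntermediateField.adjoin.finiteDimensional
            (Algebra.IsAlgebraic.isAlgebraic a).isIntegral, ?_⟩
        intro σ hσ
        rw [coeffMap_algebraMap]
        congr 1
        exact hσ a (IntermediateField.mem_adjoin_simple_self ℚ a)
      · exact ⟨⊥, inferInstance, fun σ _ => coeffMap_coeffEmb σ z⟩
  | one => exact ⟨⊥, inferInstance, fun σ _ => map_one _⟩
  | add x y _ _ hx hy =>
      obtain ⟨E₁, h₁, hE₁⟩ := hx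
      obtain ⟨E₂, h₂, hE₂⟩ := hy
      refine ⟨E₁ ⊔ E₂, IntermediateField.finiteDimensional_sup E₁ E₂, fun σ hσ => ?_⟩
      rw [map_add, hE₁ σ fun y hy => hσ y ((le_sup_left : E₁ ≤ E₁ ⊔ E₂) hy),
        hE₂ σ fun y hy => hσ y ((le_sup_right : E₂ ≤ E₁ ⊔ E₂) hy)]
  | neg x _ hx =>
      obtain ⟨E₁, h₁, hE₁⟩ := hx
      exact ⟨E₁, h₁, fun σ hσ => by rw [map_neg, hE₁ σ hσ]⟩
  | inv x _ hx =>
      obtain ⟨E₁, h₁, hE₁⟩ := hx
      exact ⟨E₁, h₁, fun σ hσ => by rw [map_inv₀, hE₁ σ hσ]⟩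
  | mul x y _ _ hx hy =>
      obtain ⟨E₁, h₁, hE₁⟩ := hx
      obtain ⟨E₂, h₂, hE₂⟩ := hy
      refine ⟨E₁ ⊔ E₂, IntermediateField.finiteDimensional_sup E₁ E₂, fun σ hσ => ?_⟩
      rw [map_mul, hE₁ σ fun y hy => hσ y ((le_sup_left : E₁ ≤ E₁ ⊔ E₂) hy),
        hE₂ σ fun y hy => hσ y ((le_sup_right : E₂ ≤ E₁ ⊔ E₂) hy)]

/-- Stabilisers in `G_ℚ` of Kummer classes are open. -/
theorem KV.exists_stab (F₀ : IntermediateField ℚ (LaurentSeries ℚ)) (m : ℕ)
    (x : KV (AlgebraicClosure ℚ) (laurentBaseChange (AlgebraicClosure ℚ) F₀) m) :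
    ∃ E : IntermediateField ℚ (AlgebraicClosure ℚ), FiniteDimensional ℚ E ∧
      ∀ σ : GQ, (∀ y ∈ E, σ y = y) → σ • x = x := by
  obtain ⟨u, rfl⟩ := KV.mk_surjective x
  obtain ⟨E, hE, hσ⟩ := exists_stab_laurentBaseChange F₀
    (((u : (laurentBaseChange (AlgebraicClosure ℚ) F₀)ˣ) :
      laurentBaseChange (AlgebraicClosure ℚ) F₀)).2
  refine ⟨E, hE, fun σ h => ?_⟩
  rw [KV.galois_smul_mk]
  congr 1
  apply Subtype.ext
  apply Units.ext
  exact Subtype.ext (hσ σ h)

end Stab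

end Fermat.Agent.GAL
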