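import Fermat.Agent.GAL.ALG.Defs

/-!
# Raising the level of an Eichler-Shimura datum

For `N ∣ M` the inclusion `S₂(Γ₀(N)) ⊆ S₂(Γ₀(M))` commutes with the `T_ℓ`, `ℓ ∤ M`.  Hence an
Eichler-Shimura datum for level `M` restricts to one for the cusp forms of level `N`
(with auxiliary level `M`).  This makes any descent of the geometric statements from level `M`
to level `N` unnecessary.
-/

set_option autoImplicit false

noncomputable section

namespace Fermat.Agent.GAL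

open CongruenceSubgroup Matrix.SpecialLinearGroup
open scoped MatrixGroups

theorem Gamma0_le_of_dvd {N M : ℕ} (h : N ∣ M) : Gamma0 M ≤ Gamma0 N := by
  intro γ hγ
  rw [Gamma0_mem, ZMod.intCast_zmod_eq_zero_iff_dvd] at hγ ⊢
  exact (Int.natCast_dvd_natCast.mpr h).trans hγ

theorem Gamma0_map_le_of_dvd {N M : ℕ} (h : N ∣ M) :
    ((Gamma0 M : Subgroup SL(2, ℤ)) : Subgroup (GL (Fin 2) ℝ)) ≤
      ((Gamma0 N : Subgroup SL(2, ℤ)) : Subgroup (GL (Fin 2) ℝ)) :=
  Subgroup.map_mono (Gamma0_le_of_dvd h)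

/-- The inclusion `S_k(Γ₀(N)) → S_k(Γ₀(M))` for `N ∣ M`. -/
def cuspFormIncl {N M : ℕ} (h : N ∣ M) (k : ℤ) :
    CuspForm (Gamma0 N) k →ₗ[ℂ] CuspForm (Gamma0 M) k where
  toFun f :=
    { toFun := ⇑f
      slash_action_eq' := fun γ hγ =>
        SlashInvariantFormClass.slash_action_eq f γ (Gamma0_map_le_of_dvd h hγ)
      holo' := CuspFormClass.holo f
      zero_at_cusps' := fun hc => CuspFormClass.zero_at_cusps f (hc.mono (Gamma0_map_le_of_dvd h)) }
  map_add' _ _ := rfl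
  map_smul' _ _ := rfl

@[simp] theorem coe_cuspFormIncl {N M : ℕ} (h : N ∣ M) (k : ℤ) (f : CuspForm (Gamma0 N) k) :
    ⇑(cuspFormIncl h k f) = ⇑f := rfl

theorem cuspFormIncl_injective {N M : ℕ} (h : N ∣ M) (k : ℤ) :
    Function.Injective (cuspFormIncl h k) := fun f g hfg =>
  DFunLike.coe_injective (by rw [← coe_cuspFormIncl h k f, hfg, coe_cuspFormIncl])

theorem cuspFormIncl_heckeTLin {N M : ℕ} (h : N ∣ M) (k : ℤ) {ℓ : ℕ} (hℓ : ℓ.Prime)
    (hℓN : ¬ ℓ ∣ N) (hℓM : ¬ ℓ ∣ M) (f : CuspForm (Gamma0 N) k) :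
    cuspFormIncl h k (CuspForm.heckeTLin k hℓ hℓN f) =
      CuspForm.heckeTLin k hℓ hℓM (cuspFormIncl h k f) := rfl

/-- An Eichler-Shimura datum at level `M` gives one for the cusp forms of level `N ∣ M`. -/
def ESDatumAt.ofDvd {N M p : ℕ} [NeZero N] [NeZero M] [Fact p.Prime] (h : N ∣ M)
    (D : ESDatumAt M M p) : ESDatumAt N M p where
  r := D.r
  T := D.T
  T_comm := D.T_comm
  per := D.per ∘ₗ cuspFormIncl h 2
  per_injective := D.per_injective.comp (cuspFormIncl_injective h 2)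
  per_T := fun ℓ hℓ hℓN hℓM f => by
    rw [LinearMap.comp_apply, LinearMap.comp_apply, cuspFormIncl_heckeTLin h 2 hℓ hℓN hℓM,
      D.per_T ℓ hℓ hℓM hℓM]
  ρ := D.ρ
  ρ_T := D.ρ_T
  ρ_cont := D.ρ_cont
  ρ_unram := D.ρ_unram
  ρ_ES := D.ρ_ES

/-- It suffices to construct Eichler-Shimura data at the levels divisible by `4` or by `9`. -/
theorem geomInput_of_neat
    (H : ∀ (M p : ℕ) [NeZero M] [Fact p.Prime], (4 ∣ M ∨ 9 ∣ M) → Nonempty (ESDatumAt M M p)) :
    GeomInput := by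
  intro N p _ _ q hq hqN
  have hqN' : ¬ q ∣ N := fun h => hqN (h.mul_right p)
  by_cases h2 : q = 2
  · subst h2
    have : NeZero (9 * N) := ⟨mul_ne_zero (by norm_num) (NeZero.ne N)⟩
    obtain ⟨D⟩ := H (9 * N) p (Or.inr (dvd_mul_right 9 N))
    refine ⟨9 * N, fun h => ?_, ⟨D.ofDvd (dvd_mul_left N 9)⟩⟩
    rcases (Nat.Prime.dvd_mul hq).mp h with h | h
    · exact absurd h (by norm_num)
    · exact hqN' h
  · have : NeZero (4 * N) := ⟨mul_ne_zero (by norm_num) (NeZero.ne N)⟩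
    obtain ⟨D⟩ := H (4 * N) p (Or.inl (dvd_mul_right 4 N))
    refine ⟨4 * N, fun h => ?_, ⟨D.ofDvd (dvd_mul_left N 4)⟩⟩
    rcases (Nat.Prime.dvd_mul hq).mp h with h | h
    · have h4 : q ∣ 2 ^ 2 := by norm_num; exact h
      exact h2 ((Nat.prime_dvd_prime_iff_eq hq Nat.prime_two).mp (hq.dvd_of_dvd_pow h4))
    · exact hqN' h

end Fermat.Agent.GAL
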