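import Fermat.Agent.S16.Lower.HeckePeriod
import Fermat.Agent.GAL.Interface
import Fermat.Prelude.Sol.S_ModularForm_heckeT_slash_eq_self_of_mem_Gamma0

/-!
# The Betti half of the Eichler-Shimura datum

`H = perLat N` (the period lattice, `≅ H₁(X₀(N), ℤ)`), with the dual Hecke operators `latT ℓ`,
the transfer formula, and the fields `r, T, T_comm, per, per_injective, per_T` of `ESDatum`.
-/

set_option autoImplicit false

namespace Fermat.Agent.GAL

open CongruenceSubgroup ModularCurve ModularCurve.Period Fermat.Agent.ES Fermat.Agent.S16.Lower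
  UpperHalfPlane Matrix.SpecialLinearGroup
open scoped MatrixGroups ModularForm
open P2MW.S_ModularForm_heckeT_slash_eq_self_of_mem_Gamma0.ModularForm.HeckeSlashInvariance

noncomputable section

variable (N : ℕ) [NeZero N]

theorem exists_transfer {ℓ : ℕ} [Fact ℓ.Prime] (hℓN : ¬ ℓ ∣ N) (γ : Gamma0 N)
    (x : OnePoint (ZMod ℓ)) :
    ∃ γ' : Gamma0 N, heckeRep ℓ x * mapGL ℝ (γ : SL(2, ℤ))
      = mapGL ℝ (γ' : SL(2, ℤ)) * heckeRep ℓ (redMatrix ℓ (γ : SL(2, ℤ)) • x) := by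
  have hcN : (N : ℤ) ∣ (γ : SL(2, ℤ)) 1 0 :=
    (ZMod.intCast_zmod_eq_zero_iff_dvd _ _).mp (Gamma0_mem.mp γ.2)
  obtain ⟨g', hg', hmul⟩ := heckeRep_mul hℓN (γ : SL(2, ℤ)) hcN x
  exact ⟨⟨g', Gamma0_mem.mpr ((ZMod.intCast_zmod_eq_zero_iff_dvd _ _).mpr hg')⟩, hmul⟩

/-- The element `γ_x ∈ Γ₀(N)` with `α_x γ = γ_x α_{γ x}`. -/
def transferElt {ℓ : ℕ} [Fact ℓ.Prime] (hℓN : ¬ ℓ ∣ N) (γ : Gamma0 N)
    (x : OnePoint (ZMod ℓ)) : Gamma0 N := (exists_transfer N hℓN γ x).choose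

theorem transferElt_spec {ℓ : ℕ} [Fact ℓ.Prime] (hℓN : ¬ ℓ ∣ N) (γ : Gamma0 N)
    (x : OnePoint (ZMod ℓ)) :
    heckeRep ℓ x * mapGL ℝ (γ : SL(2, ℤ))
      = mapGL ℝ (transferElt N hℓN γ x : SL(2, ℤ)) * heckeRep ℓ (redMatrix ℓ (γ : SL(2, ℤ)) • x) :=
  (exists_transfer N hℓN γ x).choose_spec

theorem heckeRep_det_pos (ℓ : ℕ) (x : OnePoint (ZMod ℓ)) : 0 < (heckeRep ℓ x).val.det := by
  induction x using OnePoint.rec with
  | infty =>
    have := ModularForm.det_heckeDiagMatrix_pos ℓ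
    rwa [Matrix.GeneralLinearGroup.val_det_apply] at this
  | coe j =>
    have := ModularForm.det_heckeMatrix_pos ℓ j.val
    rwa [Matrix.GeneralLinearGroup.val_det_apply] at this

/-- The dual Hecke operator. -/
def dualT {ℓ : ℕ} (hℓ : ℓ.Prime) (hℓN : ¬ ℓ ∣ N) :
    Module.Dual ℂ (CuspForm (Gamma0 N) 2) →ₗ[ℂ] Module.Dual ℂ (CuspForm (Gamma0 N) 2) :=
  (CuspForm.heckeTLin 2 hℓ hℓN).dualMap

theorem dualT_apply {ℓ : ℕ} (hℓ : ℓ.Prime) (hℓN : ¬ ℓ ∣ N)
    (l : Module.Dual ℂ (CuspForm (Gamma0 N) 2)) (f : CuspForm (Gamma0 N) 2) :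
    dualT N hℓ hℓN l f = l (CuspForm.heckeTLin 2 hℓ hℓN f) := rfl

/-- **Transfer formula**. -/
theorem dualT_perHom {ℓ : ℕ} [Fact ℓ.Prime] (hℓ : ℓ.Prime) (hℓN : ¬ ℓ ∣ N) (γ : Gamma0 N) :
    dualT N hℓ hℓN (perHom N (Additive.ofMul γ))
      = ∑ x : OnePoint (ZMod ℓ), perHom N (Additive.ofMul (transferElt N hℓN γ x)) := by
  ext f
  rw [dualT_apply, perHom_apply, LinearMap.sum_apply]
  simp only [perHom_apply]
  exact periodMap_hecke (heckeRep ℓ) (heckeRep_det_pos ℓ) f (CuspForm.heckeTLin 2 hℓ hℓN f)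
    (by rw [CuspForm.coe_heckeTLin_apply]; exact heckeT_eq_sum_onePoint _ _) γ
    (MulAction.toPerm (redMatrix ℓ (γ : SL(2, ℤ)))) (transferElt N hℓN γ)
    (transferElt_spec N hℓN γ)

theorem dualT_mem_perLat {ℓ : ℕ} (hℓ : ℓ.Prime) (hℓN : ¬ ℓ ∣ N)
    {l : Module.Dual ℂ (CuspForm (Gamma0 N) 2)} (hl : l ∈ perLat N) :
    dualT N hℓ hℓN l ∈ perLat N := by
  have : Fact ℓ.Prime := ⟨hℓ⟩
  obtain ⟨γ, rfl⟩ := hl
  have := dualT_perHom N hℓ hℓN (Additive.toMul γ)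
  rw [ofMul_toMul] at this
  rw [this]
  exact sum_mem fun x _ => ⟨_, rfl⟩

open Classical in
/-- The Hecke operator `T_ℓ` on `H = perLat N` (`0` unless `ℓ` is a prime not dividing `N`). -/
def latT (ℓ : ℕ) : perLat N →+ perLat N :=
  if h : ℓ.Prime ∧ ¬ ℓ ∣ N then
    { toFun := fun l => ⟨dualT N h.1 h.2 l.1, dualT_mem_perLat N h.1 h.2 l.2⟩
      map_zero' := Subtype.ext (map_zero _)
      map_add' := fun _ _ => Subtype.ext (map_add _ _ _) }
  else 0

theorem coe_latT {ℓ : ℕ} (hℓ : ℓ.Prime) (hℓN : ¬ ℓ ∣ N) (l : perLat N) :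
    ((latT N ℓ l : perLat N) : Module.Dual ℂ (CuspForm (Gamma0 N) 2)) = dualT N hℓ hℓN l.1 := by
  rw [latT, dif_pos ⟨hℓ, hℓN⟩]
  rfl

theorem latT_apply {ℓ : ℕ} (hℓ : ℓ.Prime) (hℓN : ¬ ℓ ∣ N) (l : perLat N)
    (f : CuspForm (Gamma0 N) 2) :
    (latT N ℓ l).1 f = l.1 (CuspForm.heckeTLin 2 hℓ hℓN f) := by
  rw [coe_latT N hℓ hℓN, dualT_apply]

theorem latT_of_not {ℓ : ℕ} (h : ¬ (ℓ.Prime ∧ ¬ ℓ ∣ N)) : latT N ℓ = 0 := by
  rw [latT, dif_neg h]

/-- **Transfer formula** on the lattice. -/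
theorem latT_perPi {ℓ : ℕ} [Fact ℓ.Prime] (hℓN : ¬ ℓ ∣ N) (γ : Gamma0 N) :
    latT N ℓ (perPi N (Additive.ofMul γ))
      = ∑ x : OnePoint (ZMod ℓ), perPi N (Additive.ofMul (transferElt N hℓN γ x)) := by
  apply Subtype.ext
  rw [coe_latT N Fact.out hℓN, coe_perPi, dualT_perHom N Fact.out hℓN, AddSubgroup.val_finsetSum]
  rfl

theorem latT_comm (ℓ ℓ' : ℕ) (l : perLat N) :
    latT N ℓ (latT N ℓ' l) = latT N ℓ' (latT N ℓ l) := by
  by_cases h : ℓ.Prime ∧ ¬ ℓ ∣ N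
  · by_cases h' : ℓ'.Prime ∧ ¬ ℓ' ∣ N
    · apply Subtype.ext
      ext f
      rw [latT_apply N h.1 h.2, latT_apply N h'.1 h'.2, latT_apply N h'.1 h'.2,
        latT_apply N h.1 h.2]
      congr 1
      exact (LinearMap.congr_fun (CuspForm.heckeTLin_comm 2 h'.1 h'.2 h.1 h.2).eq f)
    · rw [latT_of_not N h']; simp
  · rw [latT_of_not N h]; simp

/-- The rank of `H`. -/
def bettiRank : ℕ := Module.finrank ℤ (perLat N)

/-- A basis of `H`. -/
def bettiBasis : Module.Basis (Fin (bettiRank N)) ℤ (perLat N) := Module.finBasis ℤ (perLat N)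

/-- The matrix of `T_ℓ`: `T_ℓ bᵢ = ∑ⱼ (bettiT ℓ) i j • bⱼ`. -/
def bettiT (ℓ : ℕ) : Matrix (Fin (bettiRank N)) (Fin (bettiRank N)) ℤ :=
  fun i j => (bettiBasis N).repr (latT N ℓ (bettiBasis N i)) j

theorem latT_bettiBasis (ℓ : ℕ) (i : Fin (bettiRank N)) :
    latT N ℓ (bettiBasis N i) = ∑ j, bettiT N ℓ i j • bettiBasis N j :=
  ((bettiBasis N).sum_repr _).symm

theorem bettiT_comm (ℓ ℓ' : ℕ) : bettiT N ℓ * bettiT N ℓ' = bettiT N ℓ' * bettiT N ℓ := by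
  have key : ∀ a b : ℕ, ∀ i, latT N b (latT N a (bettiBasis N i))
      = ∑ k, (bettiT N a * bettiT N b) i k • bettiBasis N k := by
    intro a b i
    rw [latT_bettiBasis, map_sum]
    simp only [map_zsmul, latT_bettiBasis, Finset.smul_sum, smul_smul, Matrix.mul_apply,
      Finset.sum_smul]
    exact Finset.sum_comm
  ext i k
  have h := (key ℓ ℓ' i).symm.trans ((latT_comm N ℓ' ℓ _).trans (key ℓ' ℓ i))
  have h2 := congrArg (fun v => (bettiBasis N).repr v k) h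
  simpa [Finsupp.single_apply] using h2

/-- Coordinates of a homomorphism `H → A`. -/
def homCoord (A : Type*) [AddCommGroup A] : (perLat N →+ A) ≃+ (Fin (bettiRank N) → A) where
  toFun φ i := φ (bettiBasis N i)
  invFun v := ((bettiBasis N).constr ℤ v).toAddMonoidHom
  left_inv φ := by
    ext l
    have : ((bettiBasis N).constr ℤ fun i => φ (bettiBasis N i)) = φ.toIntLinearMap :=
      (bettiBasis N).ext fun i => by simp
    simp [this]
  right_inv v := by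
    funext i
    simp
  map_add' _ _ := rfl

@[simp] theorem homCoord_apply (A : Type*) [AddCommGroup A] (φ : perLat N →+ A)
    (i : Fin (bettiRank N)) : homCoord N A φ i = φ (bettiBasis N i) := rfl

theorem homCoord_comp_latT (R : Type*) [CommRing R] (φ : perLat N →+ R) (ℓ : ℕ) :
    homCoord N R (φ.comp (latT N ℓ))
      = ((bettiT N ℓ).map (Int.castRingHom R)).mulVec (homCoord N R φ) := by
  funext i
  rw [homCoord_apply, AddMonoidHom.comp_apply, latT_bettiBasis, map_sum, Matrix.mulVec,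
    dotProduct]
  refine Finset.sum_congr rfl fun j _ => ?_
  rw [map_zsmul, Matrix.map_apply, homCoord_apply, zsmul_eq_mul]
  rfl

/-- The period map in coordinates. -/
def bettiPer : CuspForm (Gamma0 N) 2 →ₗ[ℂ] (Fin (bettiRank N) → ℂ) where
  toFun f i := (bettiBasis N i).1 f
  map_add' f g := by funext i; simp
  map_smul' c f := by funext i; simp

@[simp] theorem bettiPer_apply (f : CuspForm (Gamma0 N) 2) (i : Fin (bettiRank N)) :
    bettiPer N f i = (bettiBasis N i).1 f := rfl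

theorem bettiPer_injective : Function.Injective (bettiPer N) := by
  rw [← LinearMap.ker_eq_bot, LinearMap.ker_eq_bot']
  intro f hf
  have h1 : ∀ l : perLat N, l.1 f = 0 := by
    intro l
    rw [← (bettiBasis N).sum_repr l, AddSubgroup.val_finsetSum, LinearMap.sum_apply]
    refine Finset.sum_eq_zero fun i _ => ?_
    have : (bettiBasis N i).1 f = 0 := congrFun hf i
    simp [this]
  apply eq_zero_of_re_periodMap_eq_zero N f
  intro γ
  have := h1 (perPi N (Additive.ofMul γ))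
  rw [coe_perPi, perHom_apply] at this
  rw [this, Complex.zero_re]

theorem bettiPer_T (ℓ : ℕ) (hℓ : ℓ.Prime) (hℓN : ¬ ℓ ∣ N) (f : CuspForm (Gamma0 N) 2) :
    bettiPer N (CuspForm.heckeTLin 2 hℓ hℓN f)
      = ((bettiT N ℓ).map (Int.castRingHom ℂ)).mulVec (bettiPer N f) := by
  funext i
  rw [bettiPer_apply, ← latT_apply N hℓ hℓN, latT_bettiBasis, AddSubgroup.val_finsetSum,
    LinearMap.sum_apply, Matrix.mulVec, dotProduct]
  refine Finset.sum_congr rfl fun j _ => ?_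
  rw [Matrix.map_apply, bettiPer_apply]
  simp

end

end Fermat.Agent.GAL
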