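import Fermat.Agent.GAL.Assembly
import Fermat.Agent.GAL.LevelRaise
import Fermat.Agent.GAL.INJ.Neat
import Fermat.Agent.GAL.Igusa.Final
import Fermat.Agent.GAL.Hecke.ES
import Fermat.Agent.GAL.Tors.HeckeInput

/-!
# The geometric input `GeomInput` of the Galois representation cluster: final assembly

`GeomInput` from TORS (`nonempty_torsDatum'`), HECKE (`inertia_smul`, `eichlerShimura`),
RED + IGUSA (`hecke_INJ_neat`, `cuspUpper`, `cuspLower`), at the neat levels `4 N`, `9 N`, and the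
inclusion `S₂(Γ₀(N)) ⊆ S₂(Γ₀(M))`.
-/

set_option autoImplicit false

noncomputable section

namespace Fermat.Agent.GAL

open Fermat.Agent.S24 Tors

theorem natCast_residueField_ne_zero (A : ValuationSubring Kbar) {ℓ : ℕ} (hℓ : ℓ.Prime)
    (hA : A.LiesOverPrime ℓ) {n : ℕ} (hn : ¬ ℓ ∣ n) :
    ((n : ℕ) : IsLocalRing.ResidueField A) ≠ 0 := by
  have := Hecke.charP_residueField A hℓ hA
  rwa [Ne, CharP.cast_eq_zero_iff (IsLocalRing.ResidueField A) ℓ]

/-- INJ at all the places needed. -/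
def INJAt (M p : ℕ) : Prop :=
  ∀ (k ℓ : ℕ), ℓ.Prime → ¬ ℓ ∣ M * p →
    ∀ A : ValuationSubring Kbar, A.LiesOverPrime ℓ → Hecke.INJ M (p ^ k) A

theorem injAt_of_neat (M p : ℕ) [NeZero M] (hneat : 4 ∣ M ∨ 9 ∣ M) : INJAt M p := by
  intro k ℓ hℓ hℓM A hA
  refine INJ.hecke_INJ_neat Igusa.cuspUpper Igusa.cuspLower A M
    (natCast_residueField_ne_zero A hℓ hA fun h => hℓM (h.mul_right p)) hneat (p ^ k)
    (natCast_residueField_ne_zero A hℓ hA fun h => hℓM ((hℓ.dvd_of_dvd_pow h).mul_left M))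

theorem kvUnramified_of_injAt (M p : ℕ) [NeZero M] [Fact p.Prime] (h : INJAt M p) :
    KVUnramified M M p := by
  intro k ℓ hℓ hℓM A hA σ hσ x
  exact Hecke.inertia_smul M (p ^ k) ℓ (pow_pos (Fact.out : p.Prime).pos k) hℓ
    (fun h => hℓM (h.mul_right p)) A hA (h k ℓ hℓ hℓM A hA) σ hσ x

theorem kvFrobRel_of_injAt (M p : ℕ) [NeZero M] [Fact p.Prime] (h : INJAt M p) :
    KVFrobRel M M p := by
  intro k ℓ _ hℓ hℓM A hA σ hσ x
  exact Hecke.eichlerShimura M (p ^ k) ℓ (pow_pos (Fact.out : p.Prime).pos k) hℓ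
    (fun h => hℓM (h.mul_right p)) A hA (h k ℓ hℓ hℓM A hA) σ hσ x

/-- Eichler-Shimura data at neat levels. -/
theorem nonempty_esDatumAt_neat (M p : ℕ) [NeZero M] [Fact p.Prime] (hneat : 4 ∣ M ∨ 9 ∣ M) :
    Nonempty (ESDatumAt M M p) :=
  nonempty_esDatumAt dvd_rfl (nonempty_torsDatum' M)
    (kvUnramified_of_injAt M p (injAt_of_neat M p hneat))
    (kvFrobRel_of_injAt M p (injAt_of_neat M p hneat))

/-- **The geometric input.** -/
theorem geomInput : GeomInput :=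
  geomInput_of_neat fun M p _ _ hneat => nonempty_esDatumAt_neat M p hneat

end Fermat.Agent.GAL
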