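import Mathlib

/-!
# The Tate limit lemma (abstract)

A compatible system of `G`-actions on `(ℤ/p^k)^r` gives a homomorphism `G → M_r(ℤ_p)`.
-/

set_option autoImplicit false

namespace Fermat.Agent.GAL.TateLimit

variable (p : ℕ) [Fact p.Prime]

/-- The reduction `ℤ/p^k₂ → ℤ/p^k₁`. -/
def redZ {k₁ k₂ : ℕ} (h : k₁ ≤ k₂) : ZMod (p ^ k₂) →+* ZMod (p ^ k₁) :=
  ZMod.castHom (pow_dvd_pow p h) _

/-- The ring of compatible sequences. -/
def Lim : Subring (∀ k : ℕ, ZMod (p ^ k)) where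
  carrier := {a | ∀ (k₁ k₂ : ℕ) (h : k₁ ≤ k₂), redZ p h (a k₂) = a k₁}
  mul_mem' {a b} ha hb k₁ k₂ h := by
    rw [Pi.mul_apply, map_mul, ha k₁ k₂ h, hb k₁ k₂ h, Pi.mul_apply]
  one_mem' k₁ k₂ h := by simp
  add_mem' {a b} ha hb k₁ k₂ h := by
    rw [Pi.add_apply, map_add, ha k₁ k₂ h, hb k₁ k₂ h, Pi.add_apply]
  zero_mem' k₁ k₂ h := by simp
  neg_mem' {a} ha k₁ k₂ h := by
    rw [Pi.neg_apply, map_neg, ha k₁ k₂ h, Pi.neg_apply]

/-- The projections. -/
def Lim.proj (k : ℕ) : Lim p →+* ZMod (p ^ k) :=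
  (Pi.evalRingHom (fun k : ℕ => ZMod (p ^ k)) k).comp (Lim p).subtype

theorem Lim.proj_compat (k₁ k₂ : ℕ) (hk : k₁ ≤ k₂) :
    (ZMod.castHom (pow_dvd_pow p hk) (ZMod (p ^ k₁))).comp (Lim.proj p k₂) = Lim.proj p k₁ := by
  ext a
  exact a.2 k₁ k₂ hk

/-- The map to `ℤ_p`. -/
noncomputable def Lim.toPadic : Lim p →+* ℤ_[p] := PadicInt.lift (Lim.proj_compat p)

theorem Lim.toZModPow_toPadic (k : ℕ) (a : Lim p) :
    PadicInt.toZModPow k (Lim.toPadic p a) = a.1 k :=
  RingHom.congr_fun (PadicInt.lift_spec (Lim.proj_compat p) k) a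

variable {p}

theorem matrix_ext {r : ℕ} {A B : Matrix (Fin r) (Fin r) ℤ_[p]}
    (h : ∀ k : ℕ, A.map (PadicInt.toZModPow k) = B.map (PadicInt.toZModPow k)) : A = B := by
  ext i j
  rw [← PadicInt.ext_of_toZModPow]
  intro k
  exact congrFun (congrFun (h k) i) j

section Tower

variable {G : Type*} [Group G] {r : ℕ} {V : ℕ → Type*} [∀ k, AddCommGroup (V k)]
  [∀ k, DistribMulAction G (V k)]
  (e : ∀ k, (Fin r → ZMod (p ^ k)) ≃+ V k)

/-- The action transported to `(ℤ/p^k)^r`. -/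
def actHom (k : ℕ) (σ : G) : (Fin r → ZMod (p ^ k)) →+ (Fin r → ZMod (p ^ k)) :=
  ((e k).symm.toAddMonoidHom.comp (DistribSMul.toAddMonoidHom (V k) σ)).comp
    (e k).toAddMonoidHom

theorem actHom_apply (k : ℕ) (σ : G) (x : Fin r → ZMod (p ^ k)) :
    actHom e k σ x = (e k).symm (σ • e k x) := rfl

/-- Its matrix. -/
noncomputable def actMat (k : ℕ) (σ : G) : Matrix (Fin r) (Fin r) (ZMod (p ^ k)) :=
  LinearMap.toMatrix' ((actHom e k σ).toZModLinearMap (p ^ k))

theorem actMat_mulVec (k : ℕ) (σ : G) (x : Fin r → ZMod (p ^ k)) :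
    (actMat e k σ).mulVec x = (e k).symm (σ • e k x) := by
  rw [actMat, LinearMap.toMatrix'_mulVec]
  rfl

theorem actMat_apply (k : ℕ) (σ : G) (i j : Fin r) :
    actMat e k σ i j = (e k).symm (σ • e k (Pi.single j 1)) i := by
  rw [← actMat_mulVec, Matrix.mulVec_single_one]
  rfl

variable (red : ∀ k₁ k₂ : ℕ, k₁ ≤ k₂ → V k₂ →+ V k₁)
  (red_smul : ∀ (k₁ k₂ : ℕ) (h : k₁ ≤ k₂) (σ : G) (x : V k₂),
    red k₁ k₂ h (σ • x) = σ • red k₁ k₂ h x)
  (red_e : ∀ (k₁ k₂ : ℕ) (h : k₁ ≤ k₂) (x : Fin r → ZMod (p ^ k₂)),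
    red k₁ k₂ h (e k₂ x) = e k₁ (fun i => redZ p h (x i)))

include red_smul red_e in
theorem actMat_compat (k₁ k₂ : ℕ) (h : k₁ ≤ k₂) (σ : G) (i j : Fin r) :
    redZ p h (actMat e k₂ σ i j) = actMat e k₁ σ i j := by
  rw [actMat_apply, actMat_apply]
  set y := (e k₂).symm (σ • e k₂ (Pi.single j 1)) with hy
  have h1 : e k₁ (fun i => redZ p h (y i)) = σ • e k₁ (Pi.single j 1) := by
    rw [← red_e k₁ k₂ h y, hy, AddEquiv.apply_symm_apply, red_smul, red_e]
    congr 2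
    funext i
    by_cases hij : i = j
    · subst hij; simp
    · simp [Pi.single_eq_of_ne hij]
  rw [← h1, AddEquiv.symm_apply_apply]

/-- The limit matrix. -/
noncomputable def rhoMat (σ : G) : Matrix (Fin r) (Fin r) ℤ_[p] :=
  fun i j => Lim.toPadic p ⟨fun k => actMat e k σ i j,
    fun k₁ k₂ h => actMat_compat e red red_smul red_e k₁ k₂ h σ i j⟩

theorem rhoMat_map (σ : G) (k : ℕ) :
    (rhoMat e red red_smul red_e σ).map (PadicInt.toZModPow k) = actMat e k σ := by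
  ext i j
  exact Lim.toZModPow_toPadic p k _

theorem actMat_one (k : ℕ) : actMat e k (1 : G) = 1 := by
  apply Matrix.toLin'.injective
  refine LinearMap.ext fun x => ?_
  rw [Matrix.toLin'_apply, actMat_mulVec, one_smul, AddEquiv.symm_apply_apply]
  simp

theorem actMat_mul (k : ℕ) (σ τ : G) : actMat e k (σ * τ) = actMat e k σ * actMat e k τ := by
  apply Matrix.toLin'.injective
  refine LinearMap.ext fun x => ?_
  rw [Matrix.toLin'_apply, actMat_mulVec, Matrix.toLin'_apply, ← Matrix.mulVec_mulVec,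
    actMat_mulVec, actMat_mulVec, AddEquiv.apply_symm_apply, mul_smul]

include red red_smul red_e in
/-- **Tate limit lemma.** -/
theorem exists_rho :
    ∃ ρ : G →* Matrix (Fin r) (Fin r) ℤ_[p], ∀ (k : ℕ) (σ : G) (x : Fin r → ZMod (p ^ k)),
      e k (((ρ σ).map (PadicInt.toZModPow k)).mulVec x) = σ • e k x := by
  refine ⟨{ toFun := rhoMat e red red_smul red_e, map_one' := ?_, map_mul' := ?_ }, ?_⟩
  · apply matrix_ext
    intro k
    rw [rhoMat_map, actMat_one, Matrix.map_one _ (map_zero _) (map_one _)]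
  · intro σ τ
    apply matrix_ext
    intro k
    rw [rhoMat_map, actMat_mul, ← rhoMat_map e red red_smul red_e σ k,
      ← rhoMat_map e red red_smul red_e τ k]
    exact (Matrix.map_mul (f := PadicInt.toZModPow k)).symm
  · intro k σ x
    show e k (((rhoMat e red red_smul red_e σ).map (PadicInt.toZModPow k)).mulVec x) = _
    rw [rhoMat_map, actMat_mulVec, AddEquiv.apply_symm_apply]

omit [∀ k, DistribMulAction G (V k)] in
/-- A matrix over `ℤ_p` which kills all the `V k` vanishes. -/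
theorem eq_zero_of_forall {M : Matrix (Fin r) (Fin r) ℤ_[p]}
    (h : ∀ (k : ℕ) (x : Fin r → ZMod (p ^ k)),
      e k ((M.map (PadicInt.toZModPow k)).mulVec x) = 0) : M = 0 := by
  apply matrix_ext
  intro k
  apply Matrix.toLin'.injective
  refine LinearMap.ext fun x => ?_
  rw [Matrix.toLin'_apply]
  have := (e k).injective ((h k x).trans (map_zero (e k)).symm)
  rw [this]
  simp

end Tower

end Fermat.Agent.GAL.TateLimit
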