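import Fermat.Agent.GAL.ALG.Defs
import Fermat.Agent.GAL.TateLimit

/-!
# From torsion level data to an Eichler-Shimura datum

`TorsionTower N M p` : for every `k` an abelian group `V k` (think of `J₀(N)[p^k]`) with an action
of `G_ℚ` and Hecke operators, identified with `(ℤ/p^k)^r` compatibly in `k`.
`TorsionTower.toESDatumAt` : the `p`-adic limit.
-/

set_option autoImplicit false

namespace Fermat.Agent.GAL

open TateLimit

/-- Torsion level Eichler-Shimura data. -/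
structure TorsionTower (N M p : ℕ) [NeZero N] [Fact p.Prime] where
  r : ℕ
  T : ℕ → Matrix (Fin r) (Fin r) ℤ
  T_comm : ∀ ℓ ℓ' : ℕ, T ℓ * T ℓ' = T ℓ' * T ℓ
  per : CuspForm (CongruenceSubgroup.Gamma0 N) 2 →ₗ[ℂ] (Fin r → ℂ)
  per_injective : Function.Injective per
  per_T : ∀ (ℓ : ℕ) (hℓ : ℓ.Prime) (hℓN : ¬ ℓ ∣ N), ¬ ℓ ∣ M →
    ∀ f : CuspForm (CongruenceSubgroup.Gamma0 N) 2,
      per (CuspForm.heckeTLin 2 hℓ hℓN f) = ((T ℓ).map (Int.castRingHom ℂ)).mulVec (per f)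
  V : ℕ → Type
  instV : ∀ k, AddCommGroup (V k)
  instA : ∀ k, DistribMulAction GQ (V k)
  e : ∀ k, (Fin r → ZMod (p ^ k)) ≃+ V k
  red : ∀ k₁ k₂ : ℕ, k₁ ≤ k₂ → V k₂ →+ V k₁
  red_smul : ∀ (k₁ k₂ : ℕ) (h : k₁ ≤ k₂) (σ : GQ) (x : V k₂),
    red k₁ k₂ h (σ • x) = σ • red k₁ k₂ h x
  red_e : ∀ (k₁ k₂ : ℕ) (h : k₁ ≤ k₂) (x : Fin r → ZMod (p ^ k₂)),
    red k₁ k₂ h (e k₂ x) = e k₁ (fun i => ZMod.castHom (pow_dvd_pow p h) (ZMod (p ^ k₁)) (x i))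
  TV : ∀ k, ℕ → V k →+ V k
  e_T : ∀ (k ℓ : ℕ), ℓ.Prime → ¬ ℓ ∣ M → ∀ x : Fin r → ZMod (p ^ k),
    e k (((T ℓ).map (Int.castRingHom (ZMod (p ^ k)))).mulVec x) = TV k ℓ (e k x)
  TV_smul : ∀ (k ℓ : ℕ), ℓ.Prime → ¬ ℓ ∣ M → ∀ (σ : GQ) (x : V k),
    TV k ℓ (σ • x) = σ • TV k ℓ x
  stab : ∀ (k : ℕ) (x : V k), ∃ F : IntermediateField ℚ (AlgebraicClosure ℚ),
    FiniteDimensional ℚ F ∧ ∀ σ : GQ, (∀ y ∈ F, σ y = y) → σ • x = x
  unram : ∀ (k ℓ : ℕ), ℓ.Prime → ¬ ℓ ∣ M * p →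
    ∀ A : ValuationSubring (AlgebraicClosure ℚ), A.LiesOverPrime ℓ →
      ∀ σ ∈ A.inertiaSubgroupIn ℚ, ∀ x : V k, σ • x = x
  ES : ∀ (k ℓ : ℕ), ℓ.Prime → ¬ ℓ ∣ M * p →
    ∀ A : ValuationSubring (AlgebraicClosure ℚ), A.LiesOverPrime ℓ →
      ∀ σ : GQ, A.IsFrobeniusAt σ ℓ → ∀ x : V k, σ • σ • x - TV k ℓ (σ • x) + ℓ • x = 0

namespace TorsionTower

variable {N M p : ℕ} [NeZero N] [Fact p.Prime] (D : TorsionTower N M p)

attribute [instance] TorsionTower.instV TorsionTower.instA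

theorem exists_rho : ∃ ρ : GQ →* Matrix (Fin D.r) (Fin D.r) ℤ_[p],
    ∀ (k : ℕ) (σ : GQ) (x : Fin D.r → ZMod (p ^ k)),
      D.e k (((PadicInt.toZModPow k).mapMatrix (ρ σ)).mulVec x) = σ • D.e k x :=
  TateLimit.exists_rho D.e D.red D.red_smul D.red_e

/-- The limit representation. -/
noncomputable def rho : GQ →* Matrix (Fin D.r) (Fin D.r) ℤ_[p] := D.exists_rho.choose

theorem rho_spec (k : ℕ) (σ : GQ) (x : Fin D.r → ZMod (p ^ k)) :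
    D.e k (((PadicInt.toZModPow k).mapMatrix (D.rho σ)).mulVec x) = σ • D.e k x :=
  D.exists_rho.choose_spec k σ x

theorem eq_zero_of_forall {A : Matrix (Fin D.r) (Fin D.r) ℤ_[p]}
    (h : ∀ (k : ℕ) (x : Fin D.r → ZMod (p ^ k)),
      D.e k (((PadicInt.toZModPow k).mapMatrix A).mulVec x) = 0) : A = 0 :=
  TateLimit.eq_zero_of_forall D.e h

theorem mapMatrix_T (k ℓ : ℕ) :
    (PadicInt.toZModPow k).mapMatrix ((D.T ℓ).map (Int.castRingHom ℤ_[p]))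
      = (D.T ℓ).map (Int.castRingHom (ZMod (p ^ k))) := by
  ext i j
  simp

theorem rho_T (σ : GQ) {ℓ : ℕ} (hℓ : ℓ.Prime) (hℓM : ¬ ℓ ∣ M) :
    D.rho σ * (D.T ℓ).map (Int.castRingHom ℤ_[p])
      = (D.T ℓ).map (Int.castRingHom ℤ_[p]) * D.rho σ := by
  rw [← sub_eq_zero]
  apply D.eq_zero_of_forall
  intro k x
  rw [map_sub, map_mul, map_mul, mapMatrix_T, Matrix.sub_mulVec, map_sub,
    ← Matrix.mulVec_mulVec, ← Matrix.mulVec_mulVec, rho_spec, D.e_T k ℓ hℓ hℓM,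
    D.e_T k ℓ hℓ hℓM, rho_spec, D.TV_smul k ℓ hℓ hℓM, sub_self]

theorem rho_unram {ℓ : ℕ} (hℓ : ℓ.Prime) (hℓM : ¬ ℓ ∣ M * p)
    (A : ValuationSubring (AlgebraicClosure ℚ)) (hA : A.LiesOverPrime ℓ)
    (σ : GQ) (hσ : σ ∈ A.inertiaSubgroupIn ℚ) : D.rho σ = 1 := by
  rw [← sub_eq_zero]
  apply D.eq_zero_of_forall
  intro k x
  rw [map_sub, map_one, Matrix.sub_mulVec, map_sub, rho_spec, Matrix.one_mulVec,
    D.unram k ℓ hℓ hℓM A hA σ hσ, sub_self]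

theorem rho_ES {ℓ : ℕ} (hℓ : ℓ.Prime) (hℓM : ¬ ℓ ∣ M * p)
    (A : ValuationSubring (AlgebraicClosure ℚ)) (hA : A.LiesOverPrime ℓ)
    (σ : GQ) (hσ : A.IsFrobeniusAt σ ℓ) :
    D.rho σ * D.rho σ - (D.T ℓ).map (Int.castRingHom ℤ_[p]) * D.rho σ
      + (ℓ : Matrix (Fin D.r) (Fin D.r) ℤ_[p]) = 0 := by
  have hℓM' : ¬ ℓ ∣ M := fun h => hℓM (h.mul_right p)
  apply D.eq_zero_of_forall
  intro k x
  have h3 : ((ℓ : Matrix (Fin D.r) (Fin D.r) (ZMod (p ^ k)))).mulVec x = ℓ • x := by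
    rw [← nsmul_one, Matrix.smul_mulVec, Matrix.one_mulVec]
  rw [map_add, map_sub, map_mul, map_mul, mapMatrix_T, map_natCast, Matrix.add_mulVec,
    Matrix.sub_mulVec, map_add, map_sub, ← Matrix.mulVec_mulVec, ← Matrix.mulVec_mulVec, rho_spec,
    rho_spec, D.e_T k ℓ hℓ hℓM', rho_spec, h3, map_nsmul]
  exact D.ES k ℓ hℓ hℓM A hA σ hσ (D.e k x)

theorem rho_cont (k : ℕ) : ∃ F : IntermediateField ℚ (AlgebraicClosure ℚ),
    FiniteDimensional ℚ F ∧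
      ∀ σ : GQ, (∀ x ∈ F, σ x = x) → ∀ i j, (p : ℤ_[p]) ^ k ∣ (D.rho σ - 1) i j := by
  choose F hF hFσ using fun j : Fin D.r => D.stab k (D.e k (Pi.single j 1))
  refine ⟨⨆ j, F j, IntermediateField.finiteDimensional_iSup_of_finite, ?_⟩
  intro σ hσ i j
  have h1 : σ • D.e k (Pi.single j 1) = D.e k (Pi.single j 1) :=
    hFσ j σ fun y hy => hσ y ((le_iSup F j) hy)
  rw [← rho_spec] at h1
  have h2 := congrFun ((D.e k).injective h1) i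
  rw [Matrix.mulVec_single_one] at h2
  have h3 : PadicInt.toZModPow k ((D.rho σ - 1) i j) = 0 := by
    rw [Matrix.sub_apply, map_sub, sub_eq_zero]
    have h4 : PadicInt.toZModPow k (D.rho σ i j) = (Pi.single j 1 : Fin D.r → ZMod (p ^ k)) i := h2
    rw [h4, Matrix.one_apply]
    by_cases hij : i = j
    · subst hij; simp
    · simp [hij]
  have h5 : (D.rho σ - 1) i j ∈ RingHom.ker (PadicInt.toZModPow (p := p) k) := h3
  rw [PadicInt.ker_toZModPow, Ideal.mem_span_singleton] at h5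
  exact h5

open Classical in
/-- **The `p`-adic limit** of a torsion tower. -/
noncomputable def toESDatumAt : ESDatumAt N M p where
  r := D.r
  T := fun ℓ => if ℓ.Prime ∧ ¬ ℓ ∣ M then D.T ℓ else 0
  T_comm := fun ℓ ℓ' => by
    split_ifs
    · exact D.T_comm ℓ ℓ'
    all_goals simp
  per := D.per
  per_injective := D.per_injective
  per_T := fun ℓ hℓ hℓN hℓM f => by
    rw [if_pos ⟨hℓ, hℓM⟩]
    exact D.per_T ℓ hℓ hℓN hℓM f
  ρ := D.rho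
  ρ_T := fun σ ℓ => by
    split_ifs with h
    · exact D.rho_T σ h.1 h.2
    · simp
  ρ_cont := D.rho_cont
  ρ_unram := fun ℓ hℓ hℓM A hA σ hσ => D.rho_unram hℓ hℓM A hA σ hσ
  ρ_ES := fun ℓ hℓ hℓM A hA σ hσ => by
    rw [if_pos ⟨hℓ, fun h => hℓM (h.mul_right p)⟩]
    exact D.rho_ES hℓ hℓM A hA σ hσ

end TorsionTower

end Fermat.Agent.GAL
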