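import Fermat.Agent.GAL.Tors.Main
import Fermat.Agent.GAL.Tower

/-!
# Assembly of the geometric input of the Galois representation cluster

`TorsDatum N` (GAL-TORS) + `KVUnramified N M p` (GAL-RED) + `KVFrobRel N M p` (GAL-HECKE + GAL-RED)
`⟹ ESDatumAt N M p`, hence `GeomInput`.
-/

set_option autoImplicit false

noncomputable section

namespace Fermat.Agent.GAL

open Fermat.Agent.S24 Tors

/-- (I3) inertia at `ℓ ∤ M p` acts trivially on `V_{p^k}(F_{ℚ̄}(N))`. -/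
def KVUnramified (N M p : ℕ) : Prop :=
  ∀ (k ℓ : ℕ), ℓ.Prime → ¬ ℓ ∣ M * p →
    ∀ A : ValuationSubring (AlgebraicClosure ℚ), A.LiesOverPrime ℓ →
      ∀ σ ∈ A.inertiaSubgroupIn ℚ, ∀ x : KV Kbar (FF Kbar N) (p ^ k), σ • x = x

/-- (I6) `Frob² - T_ℓ Frob + ℓ = 0` on `V_{p^k}(F_{ℚ̄}(N))` for `ℓ ∤ M p`. -/
def KVFrobRel (N M p : ℕ) [NeZero N] : Prop :=
  ∀ (k ℓ : ℕ) [NeZero ℓ], ℓ.Prime → ¬ ℓ ∣ M * p →
    ∀ A : ValuationSubring (AlgebraicClosure ℚ), A.LiesOverPrime ℓ →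
      ∀ σ : GQ, A.IsFrobeniusAt σ ℓ → ∀ x : KV Kbar (FF Kbar N) (p ^ k),
        σ • σ • x - heckeT Kbar N ℓ (p ^ k) (σ • x) + ℓ • x = 0

open Classical in
/-- `heckeT` as a total function of `ℓ`. -/
def heckeTtot (N : ℕ) [NeZero N] (m ℓ : ℕ) : KV Kbar (FF Kbar N) m →+ KV Kbar (FF Kbar N) m :=
  if h : ℓ = 0 then 0 else haveI : NeZero ℓ := ⟨h⟩; heckeT Kbar N ℓ m

theorem heckeTtot_eq (N : ℕ) [NeZero N] (m ℓ : ℕ) [hℓ : NeZero ℓ] :
    heckeTtot N m ℓ = heckeT Kbar N ℓ m := by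
  rw [heckeTtot, dif_neg hℓ.out]

instance neZero_pow_prime (p : ℕ) [Fact p.Prime] (k : ℕ) : NeZero (p ^ k) :=
  ⟨pow_ne_zero k (Fact.out : p.Prime).ne_zero⟩

/-- The torsion tower attached to the geometric data. -/
def torsionTower {N M p : ℕ} [NeZero N] [Fact p.Prime] (hNM : N ∣ M) (D : TorsDatum N)
    (hU : KVUnramified N M p) (hF : KVFrobRel N M p) : TorsionTower N M p where
  r := D.r
  T := D.T
  T_comm := D.T_comm
  per := D.per
  per_injective := D.per_injective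
  per_T := fun ℓ hℓ hℓN _ f => D.per_T ℓ hℓ hℓN f
  V := fun k => KV Kbar (FF Kbar N) (p ^ k)
  instV := fun _ => inferInstance
  instA := fun _ => inferInstance
  e := fun k => D.e (p ^ k)
  red := fun _ _ h => KV.red (pow_dvd_pow p h)
  red_smul := fun _ _ h σ x => KV.red_galois_smul _ (pow_dvd_pow p h) σ x
  red_e := fun k₁ k₂ h x => D.e_red (p ^ k₁) (p ^ k₂) (pow_dvd_pow p h) x
  TV := fun k ℓ => heckeTtot N (p ^ k) ℓ
  e_T := fun k ℓ hℓ hℓM x => by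
    have : NeZero ℓ := ⟨hℓ.ne_zero⟩
    rw [heckeTtot_eq]
    exact D.e_T (p ^ k) ℓ hℓ (fun h => hℓM (h.trans hNM)) x
  TV_smul := fun k ℓ hℓ _ σ x => by
    have : NeZero ℓ := ⟨hℓ.ne_zero⟩
    rw [heckeTtot_eq]
    exact heckeT_galois_smul N ℓ (p ^ k) σ x
  stab := fun k x => KV.exists_stab _ (p ^ k) x
  unram := fun k ℓ hℓ hℓM A hA σ hσ x => hU k ℓ hℓ hℓM A hA σ hσ x
  ES := fun k ℓ hℓ hℓM A hA σ hσ x => by
    have : NeZero ℓ := ⟨hℓ.ne_zero⟩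
    rw [heckeTtot_eq]
    exact hF k ℓ hℓ hℓM A hA σ hσ x

/-- **Assembly**: the Eichler-Shimura datum. -/
theorem nonempty_esDatumAt {N M p : ℕ} [NeZero N] [Fact p.Prime] (hNM : N ∣ M)
    (hT : Nonempty (TorsDatum N)) (hU : KVUnramified N M p) (hF : KVFrobRel N M p) :
    Nonempty (ESDatumAt N M p) := by
  obtain ⟨D⟩ := hT
  exact ⟨(torsionTower hNM D hU hF).toESDatumAt⟩

/-- **The geometric input**, from the outputs of TORS, RED and HECKE at level `N` itself. -/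
theorem geomInput_of
    (hT : ∀ (N : ℕ) [NeZero N], Nonempty (TorsDatum N))
    (hU : ∀ (N p : ℕ) [NeZero N] [Fact p.Prime], KVUnramified N N p)
    (hF : ∀ (N p : ℕ) [NeZero N] [Fact p.Prime], KVFrobRel N N p) : GeomInput := by
  intro N p _ _ q _ hq
  exact ⟨N, fun h => hq (h.mul_right p), nonempty_esDatumAt dvd_rfl (hT N) (hU N p) (hF N p)⟩

end Fermat.Agent.GAL
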