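import Mathlib
import Fermat.Agent.Lib.FrobeniusVal

/-!
# The `p`-adic cyclotomic character of `G_ℚ`

* `eps p : G_ℚ →* ℤ_[p]ˣ` (Mathlib's `cyclotomicCharacter`),
* `eps_frobenius`, `eps_inertia`, `eps_cont`, `exists_conj`,
* `padicTo O : ℤ_[p] →+* O` for a complete local ring `O` with `p ∈ 𝔪`, and `epsO`.
-/

set_option autoImplicit false

namespace Fermat.Agent.GAL.Cyclo

open Fermat.Agent.Lib.FrobeniusVal

section Val

variable {L : Type*} [Field L]

theorem pow_sub_pow_mem_nonunits (A : ValuationSubring L) {x y : L} (hx : x ∈ A) (hy : y ∈ A)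
    (h : x - y ∈ A.nonunits) (i : ℕ) : x ^ i - y ^ i ∈ A.nonunits := by
  induction i with
  | zero => simp
  | succ i ih =>
    have e : x ^ (i + 1) - y ^ (i + 1) = (x - y) * x ^ i + (x ^ i - y ^ i) * y := by ring
    rw [e]
    exact add_mem_nonunits A (mul_mem_nonunits A h (pow_mem hx i)) (mul_mem_nonunits A ih hy)

theorem mem_of_pow_eq_one (A : ValuationSubring L) {m : ℕ} (hm : m ≠ 0) {x : L}
    (hx : x ^ m = 1) : x ∈ A :=
  integral_mem A (IsIntegral.of_pow (Nat.pos_of_ne_zero hm) (by rw [hx]; exact isIntegral_one))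

/-- Reduction modulo a place over `ℓ` is injective on `m`-th roots of unity, `ℓ ∤ m`. -/
theorem eq_of_sub_mem_nonunits (A : ValuationSubring L) {ℓ : ℕ} (hℓ : ℓ.Prime)
    (hA : (ℓ : L) ∈ A.nonunits) {m : ℕ} (hm : ¬ ℓ ∣ m) {x y : L} (hx : x ^ m = 1)
    (hy : y ^ m = 1) (h : x - y ∈ A.nonunits) : x = y := by
  by_contra hne
  have hm0 : m ≠ 0 := by rintro rfl; exact hm (dvd_zero _)
  have hxA : x ∈ A := mem_of_pow_eq_one A hm0 hx
  have hyA : y ∈ A := mem_of_pow_eq_one A hm0 hy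
  have hS : (∑ i ∈ Finset.range m, x ^ i * y ^ (m - 1 - i)) = 0 := by
    have h1 := geom_sum₂_mul x y m
    rw [hx, hy, sub_self] at h1
    exact (mul_eq_zero.mp h1).resolve_right (sub_ne_zero.mpr hne)
  have hT : (∑ i ∈ Finset.range m, y ^ i * y ^ (m - 1 - i)) = (m : L) * y ^ (m - 1) := by
    rw [Finset.sum_congr rfl (g := fun _ => y ^ (m - 1))]
    · simp
    · intro i hi
      rw [← pow_add]
      congr 1
      have := Finset.mem_range.mp hi
      omega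
  have hmem : (m : L) * y ^ (m - 1) ∈ A.nonunits := by
    have e : (m : L) * y ^ (m - 1)
        = ∑ i ∈ Finset.range m, (y ^ i - x ^ i) * y ^ (m - 1 - i) := by
      simp_rw [sub_mul]
      rw [Finset.sum_sub_distrib, hS, hT, sub_zero]
    rw [e, ValuationSubring.mem_nonunits_iff]
    refine Valuation.map_sum_lt _ one_ne_zero fun i _ => ?_
    rw [← ValuationSubring.mem_nonunits_iff]
    refine mul_mem_nonunits A (pow_sub_pow_mem_nonunits A hyA hxA ?_ i) (pow_mem hyA _)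
    have : y - x = -(x - y) := by ring
    rw [this, ValuationSubring.mem_nonunits_iff, Valuation.map_neg,
      ← ValuationSubring.mem_nonunits_iff]
    exact h
  have hmem2 : (m : L) ∈ A.nonunits := by
    have e : (m : L) = (m : L) * y ^ (m - 1) * y := by
      rw [mul_assoc, ← pow_succ, Nat.sub_add_cancel (Nat.one_le_iff_ne_zero.mpr hm0), hy, mul_one]
    rw [e]
    exact mul_mem_nonunits A hmem hyA
  have hnd : ¬ (ℓ : ℤ) ∣ (m : ℤ) := by
    rwa [Int.natCast_dvd_natCast]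
  exact intCast_not_mem_nonunits A hℓ hA hnd (by exact_mod_cast hmem2)

variable {K : Type*} [Field K] [Algebra K L]

theorem sub_pow_mem_of_isFrobeniusAt {A : ValuationSubring L} {σ : L ≃ₐ[K] L} {q : ℕ}
    (h : A.IsFrobeniusAt σ q) {x : L} (hx : x ∈ A) : σ x - x ^ q ∈ A.nonunits := by
  have h1 := h.smul_residue_eq (IsLocalRing.residue A ⟨x, hx⟩)
  rw [← IsLocalRing.ResidueField.residue_smul, ← map_pow, ← sub_eq_zero, ← map_sub,
    IsLocalRing.residue_eq_zero_iff, ← ValuationSubring.coe_mem_nonunits_iff] at h1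
  exact h1

theorem sub_mem_of_mem_inertia {A : ValuationSubring L} {σ : L ≃ₐ[K] L}
    (h : σ ∈ A.inertiaSubgroupIn K) {x : L} (hx : x ∈ A) : σ x - x ∈ A.nonunits := by
  obtain ⟨τ, hτ, rfl⟩ := h
  have h0 : MulSemiringAction.toRingAut (A.decompositionSubgroup K)
      (IsLocalRing.ResidueField A) τ = 1 := hτ
  have h1 : τ • (IsLocalRing.residue A ⟨x, hx⟩) = IsLocalRing.residue A ⟨x, hx⟩ := by
    have := congrArg (fun f : RingAut (IsLocalRing.ResidueField A) =>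
      f (IsLocalRing.residue A ⟨x, hx⟩)) h0
    exact this
  rw [← IsLocalRing.ResidueField.residue_smul, ← sub_eq_zero, ← map_sub,
    IsLocalRing.residue_eq_zero_iff, ← ValuationSubring.coe_mem_nonunits_iff] at h1
  exact h1

end Val

section Eps

local notation "Qb" => AlgebraicClosure ℚ
local notation "GQ" => AlgebraicClosure ℚ ≃ₐ[ℚ] AlgebraicClosure ℚ

variable (p : ℕ) [Fact p.Prime]

/-- The `p`-adic cyclotomic character of `G_ℚ`. -/
noncomputable def eps : GQ →* ℤ_[p]ˣ :=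
  (cyclotomicCharacter Qb p).comp (MulSemiringAction.toRingAut GQ Qb)

theorem eps_spec (σ : GQ) {n : ℕ} {t : Qb} (ht : t ^ p ^ n = 1) :
    σ t = t ^ (((eps p σ : ℤ_[p]ˣ) : ℤ_[p]).toZModPow n).val :=
  cyclotomicCharacter.spec p (MulSemiringAction.toRingAut GQ Qb σ) t ht

/-- Characterisation of the value of the cyclotomic character. -/
theorem eps_eq_of_forall {σ : GQ} {a : ℤ_[p]}
    (h : ∀ (n : ℕ) (t : Qb), t ^ p ^ n = 1 → σ t = t ^ (a.toZModPow n).val) :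
    ((eps p σ : ℤ_[p]ˣ) : ℤ_[p]) = a := by
  refine PadicInt.ext_of_toZModPow.mp fun n => ?_
  have h1 := cyclotomicCharacter.toZModPow (L := Qb) p (n := n)
    (MulSemiringAction.toRingAut GQ Qb σ)
  have h2 := modularCyclotomicCharacter.unique Qb
    (HasEnoughRootsOfUnity.natCard_rootsOfUnity Qb (p ^ n))
    (MulSemiringAction.toRingAut GQ Qb σ) (c := a.toZModPow n) (by
      intro t ht
      have ht' : ((t : Qbˣ) : Qb) ^ p ^ n = 1 := by
        have := (mem_rootsOfUnity _ _).mp ht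
        rw [← Units.val_pow_eq_pow_val, this, Units.val_one]
      exact h n t ht')
  rw [h2]
  exact h1

theorem eps_eq_natCast_of_forall {σ : GQ} {a : ℕ}
    (h : ∀ (n : ℕ) (t : Qb), t ^ p ^ n = 1 → σ t = t ^ a) :
    ((eps p σ : ℤ_[p]ˣ) : ℤ_[p]) = a := by
  refine eps_eq_of_forall p fun n t ht => ?_
  rw [h n t ht, map_natCast, ZMod.val_natCast]
  exact pow_eq_pow_mod a ht

theorem eps_frobenius {ℓ : ℕ} (hℓ : ℓ.Prime) (hℓp : ℓ ≠ p) {A : ValuationSubring Qb}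
    (hA : A.LiesOverPrime ℓ) {σ : GQ} (hσ : A.IsFrobeniusAt σ ℓ) :
    ((eps p σ : ℤ_[p]ˣ) : ℤ_[p]) = ℓ := by
  have hp : p.Prime := Fact.out
  refine eps_eq_natCast_of_forall p fun n t ht => ?_
  have hnd : ¬ ℓ ∣ p ^ n := fun hd =>
    hℓp ((Nat.prime_dvd_prime_iff_eq hℓ hp).mp (hℓ.dvd_of_dvd_pow hd))
  have htA : t ∈ A := mem_of_pow_eq_one A (pow_ne_zero n hp.ne_zero) ht
  refine eq_of_sub_mem_nonunits A hℓ hA hnd ?_ ?_ (sub_pow_mem_of_isFrobeniusAt hσ htA)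
  · rw [← map_pow, ht, map_one]
  · rw [← pow_mul, mul_comm, pow_mul, ht, one_pow]

theorem eps_inertia {ℓ : ℕ} (hℓ : ℓ.Prime) (hℓp : ℓ ≠ p) {A : ValuationSubring Qb}
    (hA : A.LiesOverPrime ℓ) {σ : GQ} (hσ : σ ∈ A.inertiaSubgroupIn ℚ) :
    eps p σ = 1 := by
  have hp : p.Prime := Fact.out
  have h1 : ((eps p σ : ℤ_[p]ˣ) : ℤ_[p]) = ((1 : ℕ) : ℤ_[p]) := by
    refine eps_eq_natCast_of_forall p fun n t ht => ?_
    have hnd : ¬ ℓ ∣ p ^ n := fun hd =>
      hℓp ((Nat.prime_dvd_prime_iff_eq hℓ hp).mp (hℓ.dvd_of_dvd_pow hd))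
    have htA : t ∈ A := mem_of_pow_eq_one A (pow_ne_zero n hp.ne_zero) ht
    rw [pow_one]
    refine eq_of_sub_mem_nonunits A hℓ hA hnd ?_ ht (sub_mem_of_mem_inertia hσ htA)
    rw [← map_pow, ht, map_one]
  exact Units.ext (by simpa using h1)

/-- Continuity of the cyclotomic character, in elementary form. -/
theorem eps_cont (k : ℕ) : ∃ F : IntermediateField ℚ Qb, FiniteDimensional ℚ F ∧
    ∀ σ : GQ, (∀ x ∈ F, σ x = x) → (p : ℤ_[p]) ^ k ∣ ((eps p σ : ℤ_[p]ˣ) : ℤ_[p]) - 1 := by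
  obtain ⟨ζ, hζ⟩ := HasEnoughRootsOfUnity.exists_primitiveRoot Qb (p ^ k)
  refine ⟨IntermediateField.adjoin ℚ {ζ}, IntermediateField.adjoin.finiteDimensional
    ((hζ.isIntegral (Nat.pos_of_neZero _)).tower_top), fun σ hσ => ?_⟩
  have hfix : σ ζ = ζ := hσ ζ (IntermediateField.mem_adjoin_simple_self ℚ ζ)
  rw [← Ideal.mem_span_singleton, ← PadicInt.ker_toZModPow, RingHom.mem_ker, map_sub, map_one,
    sub_eq_zero]
  have h1 := eps_spec p σ hζ.pow_eq_one
  rw [hfix] at h1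
  have hp : p.Prime := Fact.out
  have h2 : ζ ^ 1 = ζ ^ (((eps p σ : ℤ_[p]ˣ) : ℤ_[p]).toZModPow k).val := by rw [pow_one]; exact h1
  rcases Nat.eq_zero_or_pos k with rfl | hk
  · have : Subsingleton (ZMod (p ^ 0)) := by rw [pow_zero]; infer_instance
    exact Subsingleton.elim _ _
  have hlt : 1 < p ^ k := Nat.one_lt_pow hk.ne' hp.one_lt
  have h3 := hζ.pow_inj hlt (ZMod.val_lt _) h2
  have : Fact (1 < p ^ k) := ⟨hlt⟩
  rw [← ZMod.val_one (p ^ k)] at h3
  exact (ZMod.val_injective _ h3).symm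

theorem isAlgebraic_Qb (inst : Algebra ℚ (AlgebraicClosure ℚ)) :
    @Algebra.IsAlgebraic ℚ (AlgebraicClosure ℚ) _ _ inst := by
  have h : inst = AlgebraicClosure.instAlgebra ℚ := Subsingleton.elim _ _
  rw [h]
  infer_instance

theorem normal_Qb (inst : Algebra ℚ (AlgebraicClosure ℚ)) :
    @Normal ℚ (AlgebraicClosure ℚ) _ _ inst := by
  have h : inst = AlgebraicClosure.instAlgebra ℚ := Subsingleton.elim _ _
  rw [h]
  infer_instance

/-- A complex conjugation in `G_ℚ`: an involution inverting all roots of unity. -/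
theorem exists_conj_inv :
    ∃ c : GQ, c * c = 1 ∧ ∀ (m : ℕ) (t : Qb), m ≠ 0 → t ^ m = 1 → c t = t⁻¹ := by
  have := isAlgebraic_Qb inferInstance
  have := normal_Qb inferInstance
  let ι : Qb →ₐ[ℚ] ℂ := IsAlgClosed.lift
  let _ : Algebra Qb ℂ := ι.toRingHom.toAlgebra
  have : IsScalarTower ℚ Qb ℂ := IsScalarTower.of_algebraMap_eq fun x => (ι.commutes x).symm
  let conj : ℂ ≃ₐ[ℚ] ℂ := Complex.conjAe.restrictScalars ℚ
  let c : GQ := conj.restrictNormal Qb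
  have hc : ∀ x : Qb, ι (c x) = (starRingEnd ℂ) (ι x) :=
    fun x => AlgEquiv.restrictNormal_commutes conj Qb x
  refine ⟨c, ?_, ?_⟩
  · ext x
    apply ι.toRingHom.injective
    show ι (c (c x)) = ι x
    rw [hc, hc, Complex.conj_conj]
  · intro m t hm ht
    apply ι.toRingHom.injective
    show ι (c t) = ι t⁻¹
    rw [hc, map_inv₀]
    have hn : ‖ι t‖ = 1 :=
      Complex.norm_eq_one_of_pow_eq_one (by rw [← map_pow, ht, map_one]) hm
    exact (Complex.inv_eq_conj hn).symm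

theorem eps_eq_neg_one_of_inv {c : GQ}
    (hc : ∀ (m : ℕ) (t : Qb), m ≠ 0 → t ^ m = 1 → c t = t⁻¹) : eps p c = -1 := by
  have hp : p.Prime := Fact.out
  have h1 : ((eps p c : ℤ_[p]ˣ) : ℤ_[p]) = -1 := by
    refine eps_eq_of_forall p fun n t ht => ?_
    rw [hc (p ^ n) t (pow_ne_zero n hp.ne_zero) ht]
    symm
    apply eq_inv_of_mul_eq_one_left
    rw [← pow_succ]
    have h2 : ((((-1 : ℤ_[p]).toZModPow n).val + 1 : ℕ) : ZMod (p ^ n)) = 0 := by
      push_cast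
      rw [ZMod.natCast_zmod_val]
      simp
    obtain ⟨d, hd⟩ := (ZMod.natCast_eq_zero_iff _ _).mp h2
    rw [hd, pow_mul, ht, one_pow]
  exact Units.ext (by simpa using h1)

/-- A complex conjugation: `c * c = 1` and `eps p c = -1` for all `p`. -/
theorem exists_conj :
    ∃ c : GQ, c * c = 1 ∧ ∀ (q : ℕ) [Fact q.Prime], eps q c = -1 := by
  obtain ⟨c, h1, h2⟩ := exists_conj_inv
  exact ⟨c, h1, fun q _ => eps_eq_neg_one_of_inv q h2⟩

end Eps

section ToO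

variable (p : ℕ) [Fact p.Prime] {O : Type*} [CommRing O] (I : Ideal O)

omit [Fact p.Prime] in
theorem natCast_pow_quot_eq_zero (hp : (p : O) ∈ I) (n : ℕ) :
    ((p ^ n : ℕ) : O ⧸ I ^ n) = 0 := by
  have h1 : ((p ^ n : ℕ) : O ⧸ I ^ n) = Ideal.Quotient.mk (I ^ n) ((p : O) ^ n) := by
    push_cast
    rfl
  rw [h1, Ideal.Quotient.eq_zero_iff_mem]
  exact Ideal.pow_mem_pow hp n

/-- `ℤ/pⁿ → O/Iⁿ` when `p ∈ I`. -/
noncomputable def zmodTo (hp : (p : O) ∈ I) (n : ℕ) : ZMod (p ^ n) →+* O ⧸ I ^ n :=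
  ZMod.castHom (ringChar.dvd (natCast_pow_quot_eq_zero p I hp n)) (O ⧸ I ^ n)

variable [IsAdicComplete I O]

/-- The canonical map `ℤ_p → O` for an `I`-adically complete ring with `p ∈ I`. -/
noncomputable def padicTo (hp : (p : O) ∈ I) : ℤ_[p] →+* O :=
  IsAdicComplete.liftRingHom I (fun n => (zmodTo p I hp n).comp (PadicInt.toZModPow n)) (by
    intro m n hle
    rw [← PadicInt.zmod_cast_comp_toZModPow m n hle, ← RingHom.comp_assoc, ← RingHom.comp_assoc]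
    congr 1
    exact Subsingleton.elim _ _)

theorem padicTo_mem_pow (hp : (p : O) ∈ I) {x : ℤ_[p]} {k : ℕ} (h : (p : ℤ_[p]) ^ k ∣ x) :
    padicTo p I hp x ∈ I ^ k := by
  obtain ⟨y, rfl⟩ := h
  rw [map_mul, map_pow, map_natCast]
  exact Ideal.mul_mem_right _ _ (Ideal.pow_mem_pow hp k)

local notation "Qb" => AlgebraicClosure ℚ
local notation "GQ" => AlgebraicClosure ℚ ≃ₐ[ℚ] AlgebraicClosure ℚ

/-- The cyclotomic character with values in `Oˣ`. -/
noncomputable def epsO (hp : (p : O) ∈ I) : GQ →* Oˣ :=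
  (Units.map (padicTo p I hp : ℤ_[p] →* O)).comp (eps p)

theorem epsO_val (hp : (p : O) ∈ I) (σ : GQ) :
    ((epsO p I hp σ : Oˣ) : O) = padicTo p I hp ((eps p σ : ℤ_[p]ˣ) : ℤ_[p]) := rfl

theorem epsO_frobenius (hp : (p : O) ∈ I) {ℓ : ℕ} (hℓ : ℓ.Prime) (hℓp : ℓ ≠ p)
    {A : ValuationSubring Qb} (hA : A.LiesOverPrime ℓ) {σ : GQ} (hσ : A.IsFrobeniusAt σ ℓ) :
    ((epsO p I hp σ : Oˣ) : O) = ℓ := by
  rw [epsO_val, eps_frobenius p hℓ hℓp hA hσ, map_natCast]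

theorem epsO_inertia (hp : (p : O) ∈ I) {ℓ : ℕ} (hℓ : ℓ.Prime) (hℓp : ℓ ≠ p)
    {A : ValuationSubring Qb} (hA : A.LiesOverPrime ℓ) {σ : GQ}
    (hσ : σ ∈ A.inertiaSubgroupIn ℚ) : epsO p I hp σ = 1 := by
  rw [epsO, MonoidHom.comp_apply, eps_inertia p hℓ hℓp hA hσ, map_one]

theorem epsO_cont (hp : (p : O) ∈ I) (k : ℕ) :
    ∃ F : IntermediateField ℚ Qb, FiniteDimensional ℚ F ∧
      ∀ σ : GQ, (∀ x ∈ F, σ x = x) → ((epsO p I hp σ : Oˣ) : O) - 1 ∈ I ^ k := by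
  obtain ⟨F, hF, h⟩ := eps_cont p k
  refine ⟨F, hF, fun σ hσ => ?_⟩
  have := padicTo_mem_pow p I hp (h σ hσ)
  rwa [map_sub, map_one] at this

theorem epsO_eq_neg_one (hp : (p : O) ∈ I) {c : GQ} (hc : eps p c = -1) :
    epsO p I hp c = -1 := by
  apply Units.ext
  rw [epsO_val, hc]
  simp

end ToO

section ToField

variable (p : ℕ) [Fact p.Prime] (k : Type*) [Field k] [CharP k p]

local notation "Qb" => AlgebraicClosure ℚ
local notation "GQ" => AlgebraicClosure ℚ ≃ₐ[ℚ] AlgebraicClosure ℚ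

omit [Fact p.Prime] in
theorem natCast_mem_bot : (p : k) ∈ (⊥ : Ideal k) := by
  rw [Ideal.mem_bot]
  exact CharP.cast_eq_zero k p

/-- The mod `p` cyclotomic character with values in a field of characteristic `p`. -/
noncomputable def epsK : GQ →* kˣ := epsO p (⊥ : Ideal k) (natCast_mem_bot p k)

theorem epsK_frobenius {ℓ : ℕ} (hℓ : ℓ.Prime) (hℓp : ℓ ≠ p)
    {A : ValuationSubring Qb} (hA : A.LiesOverPrime ℓ) {σ : GQ} (hσ : A.IsFrobeniusAt σ ℓ) :
    ((epsK p k σ : kˣ) : k) = ℓ :=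
  epsO_frobenius p _ _ hℓ hℓp hA hσ

theorem epsK_inertia {ℓ : ℕ} (hℓ : ℓ.Prime) (hℓp : ℓ ≠ p)
    {A : ValuationSubring Qb} (hA : A.LiesOverPrime ℓ) {σ : GQ}
    (hσ : σ ∈ A.inertiaSubgroupIn ℚ) : epsK p k σ = 1 :=
  epsO_inertia p _ _ hℓ hℓp hA hσ

theorem epsK_cont : ∃ F : IntermediateField ℚ Qb, FiniteDimensional ℚ F ∧
    ∀ σ : GQ, (∀ x ∈ F, σ x = x) → epsK p k σ = 1 := by
  obtain ⟨F, hF, h⟩ := epsO_cont p (⊥ : Ideal k) (natCast_mem_bot p k) 1
  refine ⟨F, hF, fun σ hσ => ?_⟩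
  have h1 := h σ hσ
  rw [pow_one, Ideal.mem_bot, sub_eq_zero] at h1
  exact Units.ext h1

theorem epsK_eq_neg_one {c : GQ} (hc : eps p c = -1) : epsK p k c = -1 :=
  epsO_eq_neg_one p _ _ hc

end ToField

end Fermat.Agent.GAL.Cyclo
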