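import Mathlib

/-!
# GAL/RepAlg: from the scalar property `g + ε(g) g⁻¹ ∈ 𝒪` to a rank two representation

Abstract group `G`, `𝒪` a PID of characteristic zero, `Λ` a nonzero finite free `𝒪`-module with a
linear action `r` of `G`, `ε : G →* 𝒪ˣ` a character, `c ∈ G` an involution with `ε c = -1`.
If `r g + ε g • r g⁻¹` is a scalar for every `g`, there is a rank two representation `ρ` with
`charpoly (ρ g) = X² - t X + ε g`, as close to the identity as `r` and `ε` are.
-/

set_option autoImplicit false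

namespace Fermat.Agent.GAL.RepAlg

open Polynomial

section RankTwo

variable {𝒪 : Type*} [CommRing 𝒪] [IsDomain 𝒪]
variable {V : Type*} [AddCommGroup V] [Module 𝒪 V] [Module.Free 𝒪 V] [Module.Finite 𝒪 V]

theorem charpoly_eq_of_finrank_two (hV : Module.finrank 𝒪 V = 2) (x : Module.End 𝒪 V) :
    LinearMap.charpoly x = X ^ 2 - C (LinearMap.trace 𝒪 V x) * X + C (LinearMap.det x) := by
  classical
  let b := Module.finBasisOfFinrankEq 𝒪 V hV
  rw [← LinearMap.charpoly_toMatrix x b, Matrix.charpoly_fin_two,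
    LinearMap.trace_eq_matrix_trace 𝒪 b, LinearMap.det_toMatrix]

theorem cayley_hamilton_two (hV : Module.finrank 𝒪 V = 2) (x : Module.End 𝒪 V) :
    x * x - LinearMap.trace 𝒪 V x • x + LinearMap.det x • (1 : Module.End 𝒪 V) = 0 := by
  have h := LinearMap.aeval_self_charpoly x
  rw [charpoly_eq_of_finrank_two hV x] at h
  simp only [map_add, map_sub, map_mul, map_pow, aeval_X, aeval_C] at h
  rw [pow_two, Module.algebraMap_end_eq_smul_id, Module.algebraMap_end_eq_smul_id] at h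
  rw [← h]
  congr 1

omit [Module.Finite 𝒪 V] in
theorem smul_one_eq_zero (hV : Module.finrank 𝒪 V = 2) {β : 𝒪}
    (h : β • (1 : Module.End 𝒪 V) = 0) : β = 0 := by
  have : Nontrivial V := Module.nontrivial_of_finrank_pos (R := 𝒪) (by omega)
  obtain ⟨v, hv⟩ := exists_ne (0 : V)
  have h1 : β • v = 0 := by simpa using LinearMap.congr_fun h v
  exact (smul_eq_zero.mp h1).resolve_right hv

/-- An endomorphism of a rank two module which is not a scalar and is killed by
`X² - tX + d` has characteristic polynomial `X² - tX + d`. -/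
theorem charpoly_eq_of_not_scalar (hV : Module.finrank 𝒪 V = 2) (x : Module.End 𝒪 V) (t d : 𝒪)
    (hx : x * x - t • x + d • (1 : Module.End 𝒪 V) = 0)
    (hns : ∀ α β : 𝒪, α • x + β • (1 : Module.End 𝒪 V) = 0 → α = 0) :
    LinearMap.charpoly x = X ^ 2 - C t * X + C d := by
  have h := cayley_hamilton_two hV x
  have h1 : (LinearMap.trace 𝒪 V x - t) • x + (d - LinearMap.det x) • (1 : Module.End 𝒪 V) = 0 := by
    have : (LinearMap.trace 𝒪 V x - t) • x + (d - LinearMap.det x) • (1 : Module.End 𝒪 V)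
        = (x * x - t • x + d • (1 : Module.End 𝒪 V))
          - (x * x - LinearMap.trace 𝒪 V x • x + LinearMap.det x • (1 : Module.End 𝒪 V)) := by
      simp only [sub_smul]; abel
    rw [this, hx, h, sub_zero]
  have h2 := hns _ _ h1
  rw [h2, zero_smul, zero_add] at h1
  have h3 := smul_one_eq_zero hV h1
  rw [charpoly_eq_of_finrank_two hV x, sub_eq_zero.mp h2, ← sub_eq_zero.mp h3]

end RankTwo

section Sat

variable {𝒪 : Type*} [CommRing 𝒪] [IsDomain 𝒪]
variable {Λ : Type*} [AddCommGroup Λ] [Module 𝒪 Λ]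

/-- The saturation of a submodule. -/
def sat (U : Submodule 𝒪 Λ) : Submodule 𝒪 Λ where
  carrier := {x | ∃ α : 𝒪, α ≠ 0 ∧ α • x ∈ U}
  zero_mem' := ⟨1, one_ne_zero, by simp⟩
  add_mem' := by
    rintro x y ⟨α, hα, hx⟩ ⟨β, hβ, hy⟩
    refine ⟨α * β, mul_ne_zero hα hβ, ?_⟩
    have : (α * β) • (x + y) = β • (α • x) + α • (β • y) := by
      rw [smul_add, mul_smul, mul_smul, smul_comm α β x]
    rw [this]
    exact U.add_mem (U.smul_mem _ hx) (U.smul_mem _ hy)
  smul_mem' := by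
    rintro a x ⟨α, hα, hx⟩
    exact ⟨α, hα, by rw [smul_comm]; exact U.smul_mem a hx⟩

theorem mem_sat {U : Submodule 𝒪 Λ} {x : Λ} : x ∈ sat U ↔ ∃ α : 𝒪, α ≠ 0 ∧ α • x ∈ U := Iff.rfl

theorem le_sat (U : Submodule 𝒪 Λ) : U ≤ sat U := fun x hx => ⟨1, one_ne_zero, by simpa using hx⟩

theorem mem_sat_of_smul_mem {U : Submodule 𝒪 Λ} {α : 𝒪} (hα : α ≠ 0) {x : Λ}
    (hx : α • x ∈ sat U) : x ∈ sat U := by
  obtain ⟨β, hβ, h⟩ := hx
  exact ⟨β * α, mul_ne_zero hβ hα, by rwa [mul_smul]⟩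

theorem sat_stable {U : Submodule 𝒪 Λ} (f : Module.End 𝒪 Λ) (hf : ∀ x ∈ U, f x ∈ U) :
    ∀ x ∈ sat U, f x ∈ sat U := by
  rintro x ⟨α, hα, hx⟩
  exact ⟨α, hα, by rw [← map_smul]; exact hf _ hx⟩

theorem finrank_sat (U : Submodule 𝒪 Λ) : Module.finrank 𝒪 (sat U) = Module.finrank 𝒪 U := by
  have h := rank_quotient_add_rank_of_isDomain (Submodule.comap (sat U).subtype U)
  have h0 : Module.rank 𝒪 (↥(sat U) ⧸ Submodule.comap (sat U).subtype U) = 0 := by
    rw [rank_eq_zero_iff]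
    intro x
    obtain ⟨⟨y, α, hα, hy⟩, rfl⟩ := Submodule.Quotient.mk_surjective _ x
    refine ⟨α, hα, ?_⟩
    rw [← Submodule.Quotient.mk_smul, Submodule.Quotient.mk_eq_zero]
    exact hy
  rw [h0, zero_add] at h
  have e := (Submodule.comapSubtypeEquivOfLe (le_sat U)).rank_eq
  rw [Module.finrank, Module.finrank, ← h, e]

theorem mem_smul_top_sat [IsPrincipalIdealRing 𝒪] (U : Submodule 𝒪 Λ) (I : Ideal 𝒪) (x : sat U)
    (hx : (x : Λ) ∈ I • (⊤ : Submodule 𝒪 Λ)) : x ∈ I • (⊤ : Submodule 𝒪 (sat U)) := by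
  rw [← Submodule.IsPrincipal.span_singleton_generator I,
    Submodule.ideal_span_singleton_smul, Submodule.mem_smul_pointwise_iff_exists] at hx ⊢
  obtain ⟨b, -, hb⟩ := hx
  by_cases hα : Submodule.IsPrincipal.generator I = 0
  · refine ⟨0, trivial, ?_⟩
    rw [hα, zero_smul] at hb
    exact Subtype.ext (by simpa using hb)
  · have hb' : b ∈ sat U := mem_sat_of_smul_mem hα (by rw [hb]; exact x.2)
    exact ⟨⟨b, hb'⟩, trivial, Subtype.ext hb⟩

end Sat

section Group

variable {𝒪 : Type*} [CommRing 𝒪] [IsDomain 𝒪]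
variable {G : Type*} [Group G]
variable {V : Type*} [AddCommGroup V] [Module 𝒪 V]

omit [IsDomain 𝒪] in
theorem quad_of_scal (ρ : G →* Module.End 𝒪 V) (ε : G →* 𝒪ˣ) {g : G} {t : 𝒪}
    (h : ρ g + (ε g : 𝒪) • ρ g⁻¹ = t • (1 : Module.End 𝒪 V)) :
    ρ g * ρ g - t • ρ g + (ε g : 𝒪) • (1 : Module.End 𝒪 V) = 0 := by
  have h1 : ρ g⁻¹ * ρ g = 1 := by rw [← map_mul, inv_mul_cancel, map_one]
  have h2 := congrArg (· * ρ g) h
  simp only [add_mul, smul_mul_assoc, h1, one_mul] at h2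
  rw [← h2]
  abel

variable [Module.Free 𝒪 V] [Module.Finite 𝒪 V]

theorem det_eq_of_charpoly (hV : Module.finrank 𝒪 V = 2) {x : Module.End 𝒪 V} {t d : 𝒪}
    (h : LinearMap.charpoly x = X ^ 2 - C t * X + C d) : LinearMap.det x = d := by
  rw [charpoly_eq_of_finrank_two hV x] at h
  have := congrArg (fun p => p.coeff 0) h
  simpa using this

/-- In rank two, if the involution `c` does not act as a scalar, the scalar property determines
all characteristic polynomials. -/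
theorem charpoly_rank_two (hV : Module.finrank 𝒪 V = 2) (ρ : G →* Module.End 𝒪 V) (ε : G →* 𝒪ˣ)
    (c : G) (hεc : ε c = -1)
    (hscal : ∀ g, ∃ t : 𝒪, ρ g + (ε g : 𝒪) • ρ g⁻¹ = t • (1 : Module.End 𝒪 V))
    (hc : ∀ α β : 𝒪, α • ρ c + β • (1 : Module.End 𝒪 V) = 0 → α = 0)
    (g : G) (t : 𝒪) (ht : ρ g + (ε g : 𝒪) • ρ g⁻¹ = t • (1 : Module.End 𝒪 V)) :
    LinearMap.charpoly (ρ g) = X ^ 2 - C t * X + C (ε g : 𝒪) := by
  have hq := quad_of_scal ρ ε ht
  by_cases hns : ∀ α β : 𝒪, α • ρ g + β • (1 : Module.End 𝒪 V) = 0 → α = 0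
  · exact charpoly_eq_of_not_scalar hV _ _ _ hq hns
  push Not at hns
  obtain ⟨α, β, hαβ, hα⟩ := hns
  -- `α • ρ g = - β • 1`
  have hx : α • ρ g = (-β) • (1 : Module.End 𝒪 V) := by
    rw [neg_smul]; exact eq_neg_of_add_eq_zero_left hαβ
  have hginv : ρ g * ρ g⁻¹ = 1 := by rw [← map_mul, mul_inv_cancel, map_one]
  have hβ : β ≠ 0 := by
    rintro rfl
    rw [neg_zero, zero_smul] at hx
    have h1 : α • (1 : Module.End 𝒪 V) = 0 := by
      rw [← hginv, ← smul_mul_assoc, hx, zero_mul]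
    exact hα (smul_one_eq_zero hV h1)
  -- determinant of `c`
  obtain ⟨tc, htc⟩ := hscal c
  have hdc : LinearMap.det (ρ c) = -1 := by
    have := det_eq_of_charpoly hV (charpoly_eq_of_not_scalar hV _ _ _ (quad_of_scal ρ ε htc) hc)
    rw [this, hεc]; simp
  -- `g * c` is not a scalar
  obtain ⟨t', ht'⟩ := hscal (g * c)
  have hns' : ∀ a b : 𝒪, a • ρ (g * c) + b • (1 : Module.End 𝒪 V) = 0 → a = 0 := by
    intro a b hab
    have h1 : (a * (-β)) • ρ c + (α * b) • (1 : Module.End 𝒪 V) = 0 := by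
      have h2 := congrArg (fun z => α • z) hab
      simp only [smul_add, smul_zero, map_mul] at h2
      rw [smul_comm α a, ← smul_mul_assoc α, hx, smul_mul_assoc, one_mul, smul_smul, smul_smul] at h2
      exact h2
    have h3 := hc _ _ h1
    rcases mul_eq_zero.mp h3 with h | h
    · exact h
    · exact absurd (neg_eq_zero.mp h) hβ
  have hdgc : LinearMap.det (ρ (g * c)) = ((ε (g * c) : 𝒪ˣ) : 𝒪) :=
    det_eq_of_charpoly hV (charpoly_eq_of_not_scalar hV _ _ _ (quad_of_scal ρ ε ht') hns')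
  have hdet : LinearMap.det (ρ g) = (ε g : 𝒪) := by
    rw [map_mul, map_mul, hdc, map_mul, hεc] at hdgc
    simpa using hdgc
  -- trace
  have htr1 : α * LinearMap.trace 𝒪 V (ρ g) = -β * 2 := by
    have := congrArg (LinearMap.trace 𝒪 V) hx
    rw [map_smul, map_smul, LinearMap.trace_one, hV] at this
    simpa using this
  have hd1 : α ^ 2 * (ε g : 𝒪) = β ^ 2 := by
    have := congrArg LinearMap.det hx
    rw [LinearMap.det_smul, LinearMap.det_smul, hV, hdet, map_one] at this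
    simpa using this
  have hq2 : (β ^ 2 + t * α * β + α ^ 2 * (ε g : 𝒪)) • (1 : Module.End 𝒪 V) = 0 := by
    have h2 := congrArg (fun z => (α ^ 2) • z) hq
    simp only [smul_add, smul_sub, smul_zero] at h2
    have e1 : α ^ 2 • (ρ g * ρ g) = (β ^ 2) • (1 : Module.End 𝒪 V) := by
      rw [pow_two, mul_smul, ← mul_smul_comm, ← smul_mul_assoc, hx, smul_mul_smul_comm, one_mul]
      congr 1; ring
    have e2 : α ^ 2 • t • ρ g = (-(t * α * β)) • (1 : Module.End 𝒪 V) := by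
      rw [pow_two, mul_smul, smul_comm α t, hx, smul_smul, smul_smul]
      congr 1; ring
    rw [e1, e2, smul_smul, ← sub_smul, ← add_smul] at h2
    rw [← h2]; congr 1; ring
  have hq3 := smul_one_eq_zero hV hq2
  have htr : LinearMap.trace 𝒪 V (ρ g) = t := by
    have h4 : β * (α * t - α * LinearMap.trace 𝒪 V (ρ g)) = 0 := by
      rw [htr1]
      linear_combination hq3 - hd1
    rcases mul_eq_zero.mp h4 with h | h
    · exact absurd h hβ
    · exact (mul_left_cancel₀ hα (sub_eq_zero.mp h)).symm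
  rw [charpoly_eq_of_finrank_two hV, htr, hdet]

end Group

section Main

variable {𝒪 : Type*} [CommRing 𝒪] [IsDomain 𝒪] [CharZero 𝒪]
variable {G : Type*} [Group G]
variable {Λ : Type*} [AddCommGroup Λ] [Module 𝒪 Λ] [Module.IsTorsionFree 𝒪 Λ]
variable (r : G →* Module.End 𝒪 Λ) (ε : G →* 𝒪ˣ)

/-- The submodule generated by the orbit of `v`. -/
def orb (v : Λ) : Submodule 𝒪 Λ := Submodule.span 𝒪 (Set.range fun g => r g v)

omit [IsDomain 𝒪] [CharZero 𝒪] [Module.IsTorsionFree 𝒪 Λ] in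
theorem mem_orb_self (v : Λ) : v ∈ orb r v := Submodule.subset_span ⟨1, by simp⟩

omit [IsDomain 𝒪] [CharZero 𝒪] [Module.IsTorsionFree 𝒪 Λ] in
theorem orb_stable (v : Λ) (g : G) : ∀ x ∈ orb r v, r g x ∈ orb r v := by
  intro x hx
  induction hx using Submodule.span_induction with
  | mem x hx =>
    obtain ⟨h, rfl⟩ := hx
    exact Submodule.subset_span ⟨g * h, by simp⟩
  | zero => simp
  | add x y _ _ hx hy => rw [map_add]; exact add_mem hx hy
  | smul a x _ hx => rw [map_smul]; exact Submodule.smul_mem _ _ hx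

omit [IsDomain 𝒪] [CharZero 𝒪] [Module.IsTorsionFree 𝒪 Λ] in
theorem orb_le {U : Submodule 𝒪 Λ} (hU : ∀ g, ∀ x ∈ U, r g x ∈ U) {v : Λ} (hv : v ∈ U) :
    orb r v ≤ U :=
  Submodule.span_le.mpr (by rintro _ ⟨g, rfl⟩; exact hU g v hv)

variable {r ε}

omit [IsDomain 𝒪] [CharZero 𝒪] [Module.IsTorsionFree 𝒪 Λ] in
theorem key {c : G} (hc : c * c = 1) (hεc : ε c = -1) {t : G → 𝒪}
    (ht : ∀ g, r g + (ε g : 𝒪) • r g⁻¹ = t g • (1 : Module.End 𝒪 Λ)) {s : 𝒪} (hs : s * s = 1)
    (h : G) :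
    (r c + s • (1 : Module.End 𝒪 Λ)) * r h * (r c + s • (1 : Module.End 𝒪 Λ))
      = (t (c * h) + s * t h) • (r c + s • (1 : Module.End 𝒪 Λ)) := by
  have hCC : r c * r c = 1 := by rw [← map_mul, hc, map_one]
  have hcinv : c⁻¹ = c := inv_eq_of_mul_eq_one_left hc
  have h1 := ht (c * h)
  rw [mul_inv_rev, hcinv, map_mul, map_mul, map_mul, hεc] at h1
  have h2 := ht h
  have h2' : (ε h : 𝒪) • r h⁻¹ = t h • (1 : Module.End 𝒪 Λ) - r h := by
    rw [← h2]; abel
  have h3 : r c * r h - t h • r c + r h * r c = t (c * h) • (1 : Module.End 𝒪 Λ) := by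
    rw [← h1]
    have : (((-1 * ε h : 𝒪ˣ) : 𝒪)) • (r h⁻¹ * r c) = - (((ε h : 𝒪) • r h⁻¹) * r c) := by
      simp
    rw [this, h2', sub_mul, smul_mul_assoc, one_mul]
    abel
  have h4 : r c * r h * r c - t h • (1 : Module.End 𝒪 Λ) + r h = t (c * h) • r c := by
    have := congrArg (· * r c) h3
    simp only [add_mul, sub_mul, smul_mul_assoc, one_mul, mul_assoc, hCC, mul_one] at this
    rw [← this, mul_assoc]
  simp only [add_mul, mul_add, smul_mul_assoc, mul_smul_comm, one_mul, mul_one, smul_add,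
    smul_smul]
  linear_combination (norm := module) h4 + s • h3 + hs • r h - (t h * hs) • (1 : Module.End 𝒪 Λ)

theorem eig_orb {c : G} (hc : c * c = 1) (hεc : ε c = -1) {t : G → 𝒪}
    (ht : ∀ g, r g + (ε g : 𝒪) • r g⁻¹ = t g • (1 : Module.End 𝒪 Λ)) {s : 𝒪} (hs : s * s = 1)
    {v : Λ} (hv : r c v = s • v) :
    ∀ x ∈ orb r v, ∃ τ : 𝒪, r c x + s • x = τ • v := by
  have h2s : (2 * s : 𝒪) ≠ 0 := mul_ne_zero two_ne_zero (by rintro rfl; simp at hs)
  intro x hx
  induction hx using Submodule.span_induction with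
  | mem x hx =>
    obtain ⟨h, rfl⟩ := hx
    refine ⟨t (c * h) + s * t h, ?_⟩
    have hk := LinearMap.congr_fun (key hc hεc ht hs h) v
    simp only [Module.End.mul_apply, LinearMap.add_apply, LinearMap.smul_apply,
      Module.End.one_apply, hv, ← add_smul, map_smul] at hk
    have h0 : (2 * s) • (r c (r h v) + s • r h v - (t (c * h) + s * t h) • v) = 0 := by
      have e : (2 * s : 𝒪) = s + s := by ring
      rw [e, smul_sub, sub_eq_zero, smul_comm (s + s) (t (c * h) + s * t h)]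
      exact hk
    exact sub_eq_zero.mp ((smul_eq_zero.mp h0).resolve_left h2s)
  | zero => exact ⟨0, by simp⟩
  | add x y _ _ hx hy =>
    obtain ⟨a, ha⟩ := hx
    obtain ⟨b, hb⟩ := hy
    exact ⟨a + b, by rw [map_add, smul_add, add_smul, ← ha, ← hb]; abel⟩
  | smul a x _ hx =>
    obtain ⟨b, hb⟩ := hx
    exact ⟨a * b, by rw [map_smul, smul_comm s a, ← smul_add, hb, mul_smul]⟩

end Main

section RankOne

variable {𝒪 : Type*} [CommRing 𝒪] [IsDomain 𝒪]
variable {V : Type*} [AddCommGroup V] [Module 𝒪 V] [Module.Free 𝒪 V]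

theorem end_eq_det_smul (hV : Module.finrank 𝒪 V = 1) (x : Module.End 𝒪 V) :
    x = LinearMap.det x • (1 : Module.End 𝒪 V) := by
  classical
  let b := Module.basisUnique Unit hV
  refine b.ext fun i => ?_
  rw [← LinearMap.det_toMatrix b x, Matrix.det_unique, LinearMap.toMatrix_apply,
    LinearMap.smul_apply, Module.End.one_apply]
  conv_lhs => rw [← b.sum_repr (x (b i))]
  rw [Fintype.sum_unique]

end RankOne

section Final

variable {𝒪 : Type} [CommRing 𝒪] [IsDomain 𝒪] [IsPrincipalIdealRing 𝒪] [CharZero 𝒪]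
variable {G : Type*} [Group G]
variable {Λ : Type} [AddCommGroup Λ] [Module 𝒪 Λ] [Module.Free 𝒪 Λ] [Module.Finite 𝒪 Λ]
variable (r : G →* Module.End 𝒪 Λ) (ε : G →* 𝒪ˣ)

/-- Restriction of the action to a stable submodule. -/
def restr (U : Submodule 𝒪 Λ) (hU : ∀ g, ∀ x ∈ U, r g x ∈ U) : G →* Module.End 𝒪 U where
  toFun g := (r g).restrict (hU g)
  map_one' := by ext x; simp
  map_mul' g h := by ext x; simp

omit [IsDomain 𝒪] [IsPrincipalIdealRing 𝒪] [CharZero 𝒪] [Module.Free 𝒪 Λ] [Module.Finite 𝒪 Λ] in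
theorem coe_restr_apply (U : Submodule 𝒪 Λ) (hU : ∀ g, ∀ x ∈ U, r g x ∈ U) (g : G) (x : U) :
    ((restr r U hU g x : U) : Λ) = r g x := rfl

omit [IsDomain 𝒪] [IsPrincipalIdealRing 𝒪] [CharZero 𝒪] [Module.Free 𝒪 Λ] [Module.Finite 𝒪 Λ] in
theorem restr_scal {U : Submodule 𝒪 Λ} (hU : ∀ g, ∀ x ∈ U, r g x ∈ U) {g : G} {t : 𝒪}
    (h : r g + (ε g : 𝒪) • r g⁻¹ = t • (1 : Module.End 𝒪 Λ)) :
    restr r U hU g + (ε g : 𝒪) • restr r U hU g⁻¹ = t • (1 : Module.End 𝒪 U) := by
  ext x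
  have := LinearMap.congr_fun h x
  simpa [coe_restr_apply] using this

/-- The conclusion of the main theorem. -/
def Concl : Prop :=
  ∃ (V : Type) (_ : AddCommGroup V) (_ : Module 𝒪 V) (_ : Module.Free 𝒪 V)
    (_ : Module.Finite 𝒪 V) (ρ : G →* Module.End 𝒪 V), Module.finrank 𝒪 V = 2 ∧
    (∀ g t, r g + (ε g : 𝒪) • r g⁻¹ = t • (1 : Module.End 𝒪 Λ) →
      LinearMap.charpoly (ρ g) = X ^ 2 - C t * X + C (ε g : 𝒪)) ∧
    (∀ (I : Ideal 𝒪) (g : G), (∀ v, r g v - v ∈ I • (⊤ : Submodule 𝒪 Λ)) → (ε g : 𝒪) - 1 ∈ I →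
      ∀ v, ρ g v - v ∈ I • (⊤ : Submodule 𝒪 V))

variable {r ε}

theorem concl_of_rank_two {c : G} (hεc : ε c = -1)
    (hscal : ∀ g, ∃ t : 𝒪, r g + (ε g : 𝒪) • r g⁻¹ = t • (1 : Module.End 𝒪 Λ))
    (U : Submodule 𝒪 Λ) (hU : ∀ g, ∀ x ∈ U, r g x ∈ U) {s : 𝒪} (hs : s * s = 1)
    {u w f₁ f₂ : Λ} (hu : u ∈ U) (hw : w ∈ U) (hu0 : u ≠ 0) (hw0 : w ≠ 0)
    (hcu : r c u = (-s) • u) (hcw : r c w = s • w)
    (hspan : ∀ x ∈ U, ∃ a b : 𝒪, (2 : 𝒪) • x = a • f₁ + b • f₂) : Concl r ε := by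
  classical
  have hs0 : s ≠ 0 := by rintro rfl; simp at hs
  have h2 : (2 : 𝒪) ≠ 0 := two_ne_zero
  have hle : Module.finrank 𝒪 U ≤ 2 := by
    let φ : U →ₗ[𝒪] Submodule.span 𝒪 (({f₁, f₂} : Finset Λ) : Set Λ) :=
      LinearMap.codRestrict _ ((2 : 𝒪) • U.subtype) (fun x => by
        obtain ⟨a, b, hab⟩ := hspan x x.2
        simp only [LinearMap.smul_apply, Submodule.subtype_apply, hab]
        exact add_mem (Submodule.smul_mem _ _ (Submodule.subset_span (by simp)))
          (Submodule.smul_mem _ _ (Submodule.subset_span (by simp))))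
    have hφ : Function.Injective φ := by
      intro x y hxy
      have h1 : (2 : 𝒪) • (x : Λ) = (2 : 𝒪) • (y : Λ) := congrArg Subtype.val hxy
      have h3 : (2 : 𝒪) • ((x : Λ) - y) = 0 := by rw [smul_sub, h1, sub_self]
      exact Subtype.ext (sub_eq_zero.mp ((smul_eq_zero.mp h3).resolve_left h2))
    calc Module.finrank 𝒪 U ≤ _ := LinearMap.finrank_le_finrank_of_injective hφ
      _ ≤ ({f₁, f₂} : Finset Λ).card := finrank_span_finset_le_card _
      _ ≤ 2 := Finset.card_le_two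
  have hindep : ∀ a b : 𝒪, a • u + b • w = 0 → a = 0 ∧ b = 0 := by
    intro a b hab
    have h1 := congrArg (r c) hab
    rw [map_add, map_smul, map_smul, hcu, hcw, map_zero] at h1
    have h3 : (2 * s * b) • w = 0 := by
      have : (2 * s * b) • w = s • (a • u + b • w) + (a • (-s) • u + b • s • w) := by module
      rw [this, hab, h1, smul_zero, add_zero]
    have hb : b = 0 := by
      rcases smul_eq_zero.mp h3 with h | h
      · exact (mul_eq_zero.mp h).resolve_left (mul_ne_zero h2 hs0)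
      · exact absurd h hw0
    rw [hb, zero_smul, add_zero] at hab
    exact ⟨(smul_eq_zero.mp hab).resolve_right hu0, hb⟩
  have hge : 2 ≤ Module.finrank 𝒪 U := by
    have hli : LinearIndependent 𝒪 ![(⟨u, hu⟩ : U), ⟨w, hw⟩] := by
      rw [LinearIndependent.pair_iff]
      intro a b hab
      exact hindep a b (by simpa using congrArg Subtype.val hab)
    simpa using hli.fintype_card_le_finrank
  have hV : Module.finrank 𝒪 (sat U) = 2 := by rw [finrank_sat]; omega
  have hS : ∀ g, ∀ x ∈ sat U, r g x ∈ sat U := fun g => sat_stable (r g) (hU g)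
  refine ⟨sat U, inferInstance, inferInstance, inferInstance, inferInstance, restr r (sat U) hS,
    hV, ?_, ?_⟩
  · intro g t ht
    refine charpoly_rank_two hV (restr r (sat U) hS) ε c hεc
      (fun g => (hscal g).imp fun t ht => restr_scal r ε hS ht) ?_ g t (restr_scal r ε hS ht)
    intro α β hαβ
    have e1 := congrArg Subtype.val (LinearMap.congr_fun hαβ ⟨u, le_sat U hu⟩)
    have e2 := congrArg Subtype.val (LinearMap.congr_fun hαβ ⟨w, le_sat U hw⟩)
    simp only [LinearMap.add_apply, LinearMap.smul_apply, Module.End.one_apply,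
      Submodule.coe_add, Submodule.coe_smul, coe_restr_apply, hcu, hcw, LinearMap.zero_apply,
      Submodule.coe_zero] at e1 e2
    have e1' : (β - α * s) • u = 0 := by rw [← e1]; module
    have e2' : (β + α * s) • w = 0 := by rw [← e2]; module
    have e3 := (smul_eq_zero.mp e1').resolve_right hu0
    have e4 := (smul_eq_zero.mp e2').resolve_right hw0
    have e5 : 2 * s * α = 0 := by linear_combination e4 - e3
    exact (mul_eq_zero.mp e5).resolve_left (mul_ne_zero h2 hs0)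
  · intro I g hg _ v
    exact mem_smul_top_sat U I _ (hg v)

/-- The diagonal representation attached to two characters. -/
def diagRep (ψ ψ' : G →* 𝒪) : G →* Module.End 𝒪 (Fin 2 → 𝒪) where
  toFun g := Matrix.toLin' (Matrix.diagonal ![ψ g, ψ' g])
  map_one' := by
    have : (![ψ 1, ψ' 1] : Fin 2 → 𝒪) = 1 := by
      ext i; fin_cases i <;> simp
    rw [this]
    have h1 : Matrix.diagonal (1 : Fin 2 → 𝒪) = 1 := Matrix.diagonal_one
    rw [h1, Matrix.toLin'_one]; rfl
  map_mul' g h := by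
    have : (![ψ (g * h), ψ' (g * h)] : Fin 2 → 𝒪) = fun i => ![ψ g, ψ' g] i * ![ψ h, ψ' h] i := by
      ext i; fin_cases i <;> simp
    rw [this, ← Matrix.diagonal_mul_diagonal, Matrix.toLin'_mul]; rfl

omit [IsDomain 𝒪] [IsPrincipalIdealRing 𝒪] [CharZero 𝒪] in
theorem diagRep_apply (ψ ψ' : G →* 𝒪) (g : G) (v : Fin 2 → 𝒪) (i : Fin 2) :
    diagRep ψ ψ' g v i = ![ψ g, ψ' g] i * v i := by
  simp [diagRep, Matrix.mulVec_diagonal]

omit [IsDomain 𝒪] [IsPrincipalIdealRing 𝒪] [CharZero 𝒪] in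
theorem charpoly_diagRep (ψ ψ' : G →* 𝒪) (g : G) :
    LinearMap.charpoly (diagRep ψ ψ' g) = X ^ 2 - C (ψ g + ψ' g) * X + C (ψ g * ψ' g) := by
  have : LinearMap.charpoly (diagRep ψ ψ' g) = (Matrix.diagonal ![ψ g, ψ' g]).charpoly :=
    Matrix.charpoly_toLin' _
  rw [this, Matrix.charpoly_diagonal, Fin.prod_univ_two]
  simp only [Matrix.cons_val_zero, Matrix.cons_val_one, map_add, map_mul]
  ring

theorem concl_of_rank_one (U : Submodule 𝒪 Λ) (hU : ∀ g, ∀ x ∈ U, r g x ∈ U) {e : Λ}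
    (he : e ∈ U) (he0 : e ≠ 0) {κ : 𝒪} (hκ : κ ≠ 0)
    (hspan : ∀ x ∈ U, ∃ a : 𝒪, κ • x = a • e) : Concl r ε := by
  classical
  have hle : Module.finrank 𝒪 U ≤ 1 := by
    let φ : U →ₗ[𝒪] Submodule.span 𝒪 (({e} : Finset Λ) : Set Λ) :=
      LinearMap.codRestrict _ (κ • U.subtype) (fun x => by
        obtain ⟨a, ha⟩ := hspan x x.2
        simp only [LinearMap.smul_apply, Submodule.subtype_apply, ha]
        exact Submodule.smul_mem _ _ (Submodule.subset_span (by simp)))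
    have hφ : Function.Injective φ := by
      intro x y hxy
      have h1 : κ • (x : Λ) = κ • (y : Λ) := congrArg Subtype.val hxy
      have h3 : κ • ((x : Λ) - y) = 0 := by rw [smul_sub, h1, sub_self]
      exact Subtype.ext (sub_eq_zero.mp ((smul_eq_zero.mp h3).resolve_left hκ))
    calc Module.finrank 𝒪 U ≤ _ := LinearMap.finrank_le_finrank_of_injective hφ
      _ ≤ ({e} : Finset Λ).card := finrank_span_finset_le_card _
      _ = 1 := Finset.card_singleton e
  have hge : 0 < Module.finrank 𝒪 U := by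
    rw [Module.finrank_pos_iff]
    exact ⟨⟨⟨e, he⟩, 0, fun h => he0 (congrArg Subtype.val h)⟩⟩
  have hV : Module.finrank 𝒪 (sat U) = 1 := by rw [finrank_sat]; omega
  have hS : ∀ g, ∀ x ∈ sat U, r g x ∈ sat U := fun g => sat_stable (r g) (hU g)
  set ρ' := restr r (sat U) hS with hρ'
  let ψ : G →* 𝒪 := LinearMap.det.comp ρ'
  have hψ : ∀ g, ρ' g = ψ g • (1 : Module.End 𝒪 (sat U)) := fun g => end_eq_det_smul hV (ρ' g)
  have hinj : ∀ a : 𝒪, a • (1 : Module.End 𝒪 (sat U)) = 0 → a = 0 := by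
    intro a ha
    have h1 := congrArg Subtype.val (LinearMap.congr_fun ha ⟨e, le_sat U he⟩)
    simp only [LinearMap.smul_apply, Module.End.one_apply, Submodule.coe_smul,
      LinearMap.zero_apply, Submodule.coe_zero] at h1
    exact (smul_eq_zero.mp h1).resolve_right he0
  let ψ' : G →* 𝒪 :=
    { toFun := fun g => (ε g : 𝒪) * ψ g⁻¹
      map_one' := by simp
      map_mul' := fun g h => by
        simp only [map_mul, mul_inv_rev, Units.val_mul]; ring }
  have hψinv : ∀ g, ψ g * ψ g⁻¹ = 1 := fun g => by rw [← map_mul, mul_inv_cancel, map_one]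
  refine ⟨Fin 2 → 𝒪, inferInstance, inferInstance, inferInstance, inferInstance, diagRep ψ ψ',
    Module.finrank_fin_fun 𝒪, ?_, ?_⟩
  · intro g t ht
    have h1 := restr_scal r ε hS ht
    rw [← hρ', hψ g, hψ g⁻¹, smul_smul, ← add_smul] at h1
    have h2 : ψ g + (ε g : 𝒪) * ψ g⁻¹ = t := by
      have : (ψ g + (ε g : 𝒪) * ψ g⁻¹ - t) • (1 : Module.End 𝒪 (sat U)) = 0 := by
        rw [sub_smul (ψ g + (ε g : 𝒪) * ψ g⁻¹) t (1 : Module.End 𝒪 (sat U)), h1, sub_self]
      exact sub_eq_zero.mp (hinj _ this)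
    rw [charpoly_diagRep]
    have h3 : ψ g * ψ' g = (ε g : 𝒪) := by
      show ψ g * ((ε g : 𝒪) * ψ g⁻¹) = _
      rw [mul_left_comm, hψinv, mul_one]
    have h4 : ψ g + ψ' g = t := h2
    rw [h3, h4]
  · intro I g hg hεg v
    -- `ψ g - 1 ∈ I`
    have hψI : ψ g - 1 ∈ I := by
      let b := Module.basisUnique Unit hV
      have h1 : ρ' g (b ()) - b () ∈ I • (⊤ : Submodule 𝒪 (sat U)) :=
        mem_smul_top_sat U I _ (hg _)
      rw [hψ g, LinearMap.smul_apply, Module.End.one_apply] at h1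
      rw [← Submodule.IsPrincipal.span_singleton_generator I,
        Submodule.ideal_span_singleton_smul, Submodule.mem_smul_pointwise_iff_exists] at h1
      obtain ⟨y, -, hy⟩ := h1
      have h2 := congrArg (fun z => b.repr z ()) hy
      simp only [map_smul, map_sub, Finsupp.smul_apply, Finsupp.sub_apply, Module.Basis.repr_self,
        Finsupp.single_eq_same, smul_eq_mul, mul_one] at h2
      rw [← h2]
      exact I.mul_mem_right _ (Submodule.IsPrincipal.generator_mem I)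
    have hψ'I : ψ' g - 1 ∈ I := by
      have e1 : ψ' g - 1 = ((ε g : 𝒪) - 1) * ψ g⁻¹ - ψ g⁻¹ * (ψ g - 1) := by
        show (ε g : 𝒪) * ψ g⁻¹ - 1 = _
        have := hψinv g
        linear_combination this
      rw [e1]
      exact I.sub_mem (I.mul_mem_right _ hεg) (I.mul_mem_left _ hψI)
    rw [← Submodule.IsPrincipal.span_singleton_generator I] at hψI hψ'I ⊢
    rw [Ideal.mem_span_singleton'] at hψI hψ'I
    obtain ⟨k, hk⟩ := hψI
    obtain ⟨k', hk'⟩ := hψ'I
    rw [Submodule.ideal_span_singleton_smul, Submodule.mem_smul_pointwise_iff_exists]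
    refine ⟨fun i => ![k, k'] i * v i, trivial, ?_⟩
    ext i
    rw [Pi.smul_apply, Pi.sub_apply, diagRep_apply]
    fin_cases i
    · simp only [Fin.zero_eta, Matrix.cons_val_zero, smul_eq_mul]
      linear_combination v 0 * hk
    · simp only [Fin.mk_one, Matrix.cons_val_one, Matrix.cons_val_fin_one, smul_eq_mul]
      linear_combination v 1 * hk'

/-- **Main theorem.** -/
theorem exists_rank_two [Nontrivial Λ] {c : G} (hc : c * c = 1) (hεc : ε c = -1)
    (hscal : ∀ g, ∃ t : 𝒪, r g + (ε g : 𝒪) • r g⁻¹ = t • (1 : Module.End 𝒪 Λ)) : Concl r ε := by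
  choose t ht using hscal
  have h2 : (2 : 𝒪) ≠ 0 := two_ne_zero
  have hCC : ∀ x, r c (r c x) = x := fun x => by
    rw [← Module.End.mul_apply, ← map_mul, hc, map_one, Module.End.one_apply]
  -- an eigenvector of `c`
  obtain ⟨s, hs, v, hv0, hv⟩ : ∃ s : 𝒪, s * s = 1 ∧ ∃ v : Λ, v ≠ 0 ∧ r c v = s • v := by
    obtain ⟨x, hx⟩ := exists_ne (0 : Λ)
    by_cases h : r c x + x = 0
    · refine ⟨-1, by ring, x, hx, ?_⟩
      rw [neg_smul, one_smul]; exact eq_neg_of_add_eq_zero_left h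
    · exact ⟨1, by ring, r c x + x, h, by rw [map_add, hCC, one_smul, add_comm]⟩
  have hs0 : s ≠ 0 := by rintro rfl; simp at hs
  have hA := eig_orb hc hεc ht hs hv
  by_cases h1 : ∀ x ∈ orb r v, r c x = s • x
  · refine concl_of_rank_one (orb r v) (orb_stable r v) (mem_orb_self r v) hv0
      (mul_ne_zero h2 hs0) fun x hx => ?_
    obtain ⟨τ, hτ⟩ := hA x hx
    exact ⟨τ, by rw [← hτ, h1 x hx]; module⟩
  push Not at h1
  obtain ⟨x₀, hx₀, hne⟩ := h1
  set u := r c x₀ - s • x₀ with hu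
  have hu0 : u ≠ 0 := sub_ne_zero.mpr hne
  have huU : u ∈ orb r v := sub_mem (orb_stable r v c x₀ hx₀) (Submodule.smul_mem _ _ hx₀)
  have hcu : r c u = (-s) • u := by
    rw [hu, map_sub, hCC, map_smul]
    have : x₀ = (s * s) • x₀ := by rw [hs, one_smul]
    nth_rewrite 1 [this]
    module
  have hs' : (-s) * (-s) = 1 := by rw [neg_mul_neg, hs]
  have hB := eig_orb hc hεc ht hs' hcu
  have hle : orb r u ≤ orb r v := orb_le r (orb_stable r v) huU
  by_cases h3 : ∀ x ∈ orb r u, r c x = (-s) • x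
  · refine concl_of_rank_one (orb r u) (orb_stable r u) (mem_orb_self r u) hu0
      (mul_ne_zero h2 (neg_ne_zero.mpr hs0)) fun x hx => ?_
    obtain ⟨τ, hτ⟩ := hB x hx
    exact ⟨τ, by rw [← hτ, h3 x hx]; module⟩
  push Not at h3
  obtain ⟨x₁, hx₁, hne₁⟩ := h3
  set w := r c x₁ - (-s) • x₁ with hw
  have hw0 : w ≠ 0 := sub_ne_zero.mpr hne₁
  have hwU : w ∈ orb r u := sub_mem (orb_stable r u c x₁ hx₁) (Submodule.smul_mem _ _ hx₁)
  have hcw : r c w = s • w := by
    rw [hw, map_sub, hCC, map_smul]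
    have : x₁ = (s * s) • x₁ := by rw [hs, one_smul]
    nth_rewrite 1 [this]
    module
  refine concl_of_rank_two hεc (fun g => ⟨t g, ht g⟩) (orb r u) (orb_stable r u) hs
    (mem_orb_self r u) hwU hu0 hw0 hcu hcw (f₁ := v) (f₂ := u) fun x hx => ?_
  obtain ⟨τ, hτ⟩ := hA x (hle hx)
  obtain ⟨τ', hτ'⟩ := hB x hx
  refine ⟨s * τ, -(s * τ'), ?_⟩
  have : (2 : 𝒪) • x = (s * s) • (2 : 𝒪) • x := by rw [hs, one_smul]
  rw [this, mul_smul s τ, neg_smul, mul_smul s τ', ← hτ, ← hτ']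
  module

end Final

end Fermat.Agent.GAL.RepAlg
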