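import Mathlib
import Fermat.Prelude.Thm_Algebra_finite_maximalSpectrum_and_bijective_localization_of_module_finite
import Fermat.Prelude.Thm_IsLocalRing_isAdicComplete_of_module_finite

set_option autoImplicit false
set_option linter.style.haveILetI false
set_option linter.overlappingInstances false

/-!
# Finite extensions of complete discrete valuation rings

`exists_dvrExt`: inside a field `E` containing a complete DVR `O` (characteristic zero, finite
residue field), every finite set of algebraic elements lies in the fraction field of a subalgebra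
`O2` which is again a complete DVR with finite residue field, finite over `O`.
-/

namespace Fermat.Agent.GAL

section core

variable (O : Type) [CommRing O] [IsDomain O] [IsDiscreteValuationRing O]
  [IsAdicComplete (IsLocalRing.maximalIdeal O) O]

/-- A domain which is finite over a complete local noetherian ring is local. -/
theorem dvrExt_isLocalRing (C : Type) [CommRing C] [IsDomain C] [Algebra O C] [Module.Finite O C] :
    IsLocalRing C := by
  obtain ⟨-, hbij, -, -⟩ :=
    Algebra.finite_maximalSpectrum_and_bijective_localization_of_module_finite (𝒪 := O) C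
  classical
  refine IsLocalRing.of_unique_max_ideal ?_
  obtain ⟨M, hM⟩ := Ideal.exists_maximal C
  refine ⟨M, hM, fun M' hM' => ?_⟩
  by_contra hne
  let I : MaximalSpectrum C := ⟨M, hM⟩
  let I' : MaximalSpectrum C := ⟨M', hM'⟩
  have hII' : I' ≠ I := fun h => hne (congrArg MaximalSpectrum.asIdeal h)
  obtain ⟨a, ha⟩ := hbij.2 (Pi.single I 1)
  obtain ⟨b, hb⟩ := hbij.2 (Pi.single I' 1)
  have hab : a * b = 0 := by
    apply hbij.1
    rw [map_mul, ha, hb, map_zero]
    funext J
    by_cases hJ : J = I
    · subst hJ
      simp [Pi.single_eq_of_ne hII'.symm]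
    · simp [Pi.single_eq_of_ne hJ]
  rcases mul_eq_zero.1 hab with h0 | h0
  · rw [h0, map_zero] at ha
    have := congrFun ha I
    simp at this
  · rw [h0, map_zero] at hb
    have := congrFun hb I'
    simp at this

omit [IsAdicComplete (IsLocalRing.maximalIdeal O) O] in
theorem dvrExt_finite_residueField [Finite (IsLocalRing.ResidueField O)]
    (C : Type) [CommRing C] [IsLocalRing C] [Algebra O C] [Module.Finite O C]
    [IsLocalHom (algebraMap O C)] : Finite (IsLocalRing.ResidueField C) := by
  have : Module.Finite (IsLocalRing.ResidueField O) (IsLocalRing.ResidueField C) := inferInstance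
  exact Module.finite_of_finite (IsLocalRing.ResidueField O)

/-- A Dedekind domain, finite and faithful over a complete DVR, is a DVR. -/
theorem dvrExt_isDVR (C : Type) [CommRing C] [IsDomain C] [Algebra O C] [Module.Finite O C]
    [IsDedekindDomain C] (hinj : Function.Injective (algebraMap O C)) :
    IsDiscreteValuationRing C := by
  haveI : IsLocalRing C := dvrExt_isLocalRing O C
  have hnf : ¬ IsField C := by
    intro hC
    have hint : Algebra.IsIntegral O C := inferInstance
    have : IsField O := isField_of_isIntegral_of_isField hinj hC
    exact IsDiscreteValuationRing.not_isField O this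
  have hD : IsDedekindDomain C := inferInstance
  exact ((IsDiscreteValuationRing.TFAE C hnf).out 0 2).2 hD

end core

theorem exists_dvrExt (O : Type) [CommRing O] [IsDomain O] [IsDiscreteValuationRing O]
    [IsAdicComplete (IsLocalRing.maximalIdeal O) O] [Finite (IsLocalRing.ResidueField O)]
    [CharZero O]
    (E : Type) [Field E] [Algebra O E] (hinj : Function.Injective (algebraMap O E))
    (s : Finset E) (hs : ∀ x ∈ s, IsAlgebraic O x) :
    ∃ (O2 : Subalgebra O E) (_ : IsDiscreteValuationRing O2)
      (_ : IsAdicComplete (IsLocalRing.maximalIdeal O2) O2)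
      (_ : Finite (IsLocalRing.ResidueField O2)) (_ : Module.Finite O O2)
      (_ : IsLocalHom (algebraMap O O2)),
      ∀ x ∈ s, ∃ a b : O2, b ≠ 0 ∧ x * (b : E) = (a : E) := by
  classical
  let K := FractionRing O
  letI : Algebra K E := (IsFractionRing.lift hinj).toAlgebra
  haveI : IsScalarTower O K E :=
    IsScalarTower.of_algebraMap_eq (fun x => (IsFractionRing.lift_algebraMap hinj x).symm)
  haveI : CharZero K := charZero_of_injective_algebraMap (IsFractionRing.injective O K)
  let K2 : IntermediateField K E := IntermediateField.adjoin K (s : Set E)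
  haveI : FiniteDimensional K K2 :=
    IntermediateField.finiteDimensional_adjoin
      (fun x hx => ((hs x hx).extendScalars (IsFractionRing.injective O K)).isIntegral)
  let C0 := integralClosure O K2
  haveI : IsDedekindDomain C0 := integralClosure.isDedekindDomain O K K2
  haveI : Module.Finite O C0 := IsIntegralClosure.finite O K K2 C0
  have hinj0 : Function.Injective (algebraMap O C0) := by
    intro a b hab
    apply hinj
    exact congrArg (fun z : C0 => ((z : K2) : E)) hab
  haveI : IsDiscreteValuationRing C0 := dvrExt_isDVR O C0 hinj0
  let φ : C0 →ₐ[O] E := (K2.val.restrictScalars O).comp C0.val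
  have hφ : Function.Injective φ := by
    intro a b hab
    apply Subtype.ext
    apply Subtype.ext
    exact hab
  let O2 : Subalgebra O E := φ.range
  let e : C0 ≃ₐ[O] O2 := AlgEquiv.ofInjective φ hφ
  haveI hdvr : IsDiscreteValuationRing O2 := IsDiscreteValuationRing.RingEquivClass.isDiscreteValuationRing e
  haveI hfin : Module.Finite O O2 := Module.Finite.equiv e.toLinearEquiv
  have hinj2 : Function.Injective (algebraMap O O2) := by
    intro a b hab
    apply hinj
    exact congrArg (fun z : O2 => (z : E)) hab
  haveI : FaithfulSMul O O2 := (faithfulSMul_iff_algebraMap_injective O O2).2 hinj2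
  haveI hloc : IsLocalHom (algebraMap O O2) := inferInstance
  refine ⟨O2, hdvr, IsLocalRing.isAdicComplete_of_module_finite (𝒪 := O),
    dvrExt_finite_residueField O O2, hfin, hloc, fun x hx => ?_⟩
  obtain ⟨y, hy0, hy⟩ := (hs x hx).exists_integral_multiple
  have hxK2 : x ∈ K2 := IntermediateField.subset_adjoin K _ hx
  have hint : IsIntegral O (y • (⟨x, hxK2⟩ : K2)) := by
    have h1 : (K2.val.restrictScalars O) (y • (⟨x, hxK2⟩ : K2)) = y • x := by
      rw [map_smul]; rfl
    refine (isIntegral_algHom_iff (K2.val.restrictScalars O) ?_).1 (h1 ▸ hy)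
    exact Subtype.val_injective
  refine ⟨⟨y • x, ⟨⟨y • (⟨x, hxK2⟩ : K2), hint⟩, ?_⟩⟩, algebraMap O O2 y, ?_, ?_⟩
  · rfl
  · intro h
    exact hy0 (hinj2 (h.trans (map_zero _).symm))
  · show x * algebraMap O E y = y • x
    rw [Algebra.smul_def, mul_comm]

end Fermat.Agent.GAL
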