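import Mathlib
import Fermat.Agent.GAL.Interface
import Fermat.Agent.Lib.Frobenius
import Fermat.Agent.CFT.Lift

/-!
# Frobenius density: from number fields to valuation subrings of `Q̄`

`DecompDensity` is the weakest finite-level input: every element `g` of the Galois group of a
Galois number field lies in the decomposition group of a prime outside any given finite set.
We deduce `FrobeniusDensity` (see `GAL/Interface.lean`).
-/

set_option autoImplicit false

namespace Fermat.Agent.GAL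

open NumberField
open scoped Pointwise

/-- Finite-level input: every `g` stabilises some nonzero prime not containing `N`. -/
def DecompDensity : Prop :=
  ∀ (L : Type) [Field L] [NumberField L] [IsGalois ℚ L] (g : L ≃ₐ[ℚ] L) (N : ℕ), N ≠ 0 →
    ∃ P : Ideal (𝓞 L), P.IsPrime ∧ P ≠ ⊥ ∧ g • P = P ∧ (N : 𝓞 L) ∉ P

/-- A ring endomorphism of a finite field of characteristic `ℓ` is a power of the Frobenius. -/
theorem fd_exists_pow_of_ringHom (k : Type*) [Field k] [Finite k] (ℓ : ℕ) [Fact ℓ.Prime]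
    [CharP k ℓ] (φ : k →+* k) : ∃ b : ℕ, ∀ y, φ y = y ^ (ℓ ^ b) := by
  let _ : Algebra (ZMod ℓ) k := ZMod.algebra k ℓ
  let φ' : k →ₐ[ZMod ℓ] k :=
    { φ with
      commutes' := fun r => by
        have : φ.comp (algebraMap (ZMod ℓ) k) = algebraMap (ZMod ℓ) k := Subsingleton.elim _ _
        exact DFunLike.congr_fun this r }
  obtain ⟨n, hn⟩ := (FiniteField.bijective_frobeniusAlgHom_pow (ZMod ℓ) k).2 φ'
  refine ⟨n, fun y => ?_⟩
  have h := DFunLike.congr_fun hn y
  simp only [AlgHom.coe_pow, FiniteField.coe_frobeniusAlgHom, pow_iterate, ZMod.card] at h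
  exact h.symm

/-- Outside a finite set of primes the inertia groups of a Galois number field are trivial. -/
theorem fd_exists_inertia_trivial (L : Type*) [Field L] [NumberField L] :
    ∃ N : ℕ, N ≠ 0 ∧ ∀ P : Ideal (𝓞 L), (N : 𝓞 L) ∉ P → ∀ τ : L ≃ₐ[ℚ] L,
      (∀ x : 𝓞 L, τ • x - x ∈ P) → τ = 1 := by
  classical
  have hex : ∀ τ : L ≃ₐ[ℚ] L, ∃ x : 𝓞 L, τ ≠ 1 → τ • x - x ≠ 0 := by
    intro τ
    by_cases hτ : τ = 1
    · exact ⟨0, fun h => absurd hτ h⟩
    · by_contra hcon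
      push Not at hcon
      apply hτ
      ext y
      obtain ⟨a, b, hb, rfl⟩ := IsFractionRing.div_surjective (A := 𝓞 L) y
      have ha := (hcon a).2
      have hb' := (hcon b).2
      rw [sub_eq_zero] at ha hb'
      have ha2 : τ (a : L) = a := congrArg (fun z : 𝓞 L => (z : L)) ha
      have hb2 : τ (b : L) = b := congrArg (fun z : 𝓞 L => (z : L)) hb'
      simp only [map_div₀, AlgEquiv.one_apply]
      rw [ha2, hb2]
  choose x hx using hex
  have : Fintype (L ≃ₐ[ℚ] L) := Fintype.ofFinite _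
  set δ : 𝓞 L := ∏ τ ∈ Finset.univ.filter (fun τ : L ≃ₐ[ℚ] L => τ ≠ 1), (τ • x τ - x τ) with hδ
  have hδ0 : δ ≠ 0 := by
    rw [hδ, Finset.prod_ne_zero_iff]
    intro τ hτ
    exact hx τ (Finset.mem_filter.mp hτ).2
  refine ⟨Ideal.absNorm (Ideal.span {δ}), ?_, ?_⟩
  · rw [Ne, Ideal.absNorm_eq_zero_iff, Ideal.span_singleton_eq_bot]
    exact hδ0
  · intro P hP τ hτ
    by_contra hne
    apply hP
    have h1 : δ ∈ P := by
      rw [hδ]
      have hmem : τ ∈ Finset.univ.filter (fun τ : L ≃ₐ[ℚ] L => τ ≠ 1) := by simp [hne]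
      exact Ideal.mem_of_dvd _ (Finset.dvd_prod_of_mem _ hmem) (hτ _)
    have h2 : Ideal.span {δ} ≤ P := (Ideal.span_singleton_le_iff_mem _).mpr h1
    exact h2 (Ideal.absNorm_mem _)

/-- The residue characteristic of a nonzero maximal ideal. -/
theorem fd_exists_prime_mem (L : Type*) [Field L] [NumberField L] (P : Ideal (𝓞 L))
    [hP : P.IsMaximal] (hP0 : P ≠ ⊥) : ∃ ℓ : ℕ, ℓ.Prime ∧ (ℓ : 𝓞 L) ∈ P := by
  let _ : Field (𝓞 L ⧸ P) := Ideal.Quotient.field P
  have : Finite (𝓞 L ⧸ P) := Ideal.finiteQuotientOfFreeOfNeBot P hP0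
  refine ⟨ringChar (𝓞 L ⧸ P), CharP.char_is_prime (𝓞 L ⧸ P) _, ?_⟩
  rw [← Ideal.Quotient.eq_zero_iff_mem, map_natCast]
  exact CharP.cast_eq_zero _ _

/-- An element of the decomposition group acts on the residue field as a power of Frobenius. -/
theorem fd_exists_pow_of_stab (L : Type*) [Field L] [NumberField L] (P : Ideal (𝓞 L))
    [hP : P.IsMaximal] (hP0 : P ≠ ⊥) (ℓ : ℕ) (hℓ : ℓ.Prime) (hℓP : (ℓ : 𝓞 L) ∈ P)
    (g : L ≃ₐ[ℚ] L) (hg : g • P = P) : ∃ b : ℕ, ∀ x : 𝓞 L, g • x - x ^ (ℓ ^ b) ∈ P := by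
  let _ : Field (𝓞 L ⧸ P) := Ideal.Quotient.field P
  have : Finite (𝓞 L ⧸ P) := Ideal.finiteQuotientOfFreeOfNeBot P hP0
  have : Fact ℓ.Prime := ⟨hℓ⟩
  have : CharP (𝓞 L ⧸ P) ℓ := by
    rw [CharP.charP_iff_prime_eq_zero hℓ, ← map_natCast (Ideal.Quotient.mk P),
      Ideal.Quotient.eq_zero_iff_mem]
    exact hℓP
  have hle : P ≤ P.comap (MulSemiringAction.toRingHom (L ≃ₐ[ℚ] L) (𝓞 L) g) := by
    intro x hx
    rw [Ideal.mem_comap]
    have := Ideal.smul_mem_pointwise_smul g x P hx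
    rwa [hg] at this
  obtain ⟨b, hb⟩ := fd_exists_pow_of_ringHom (𝓞 L ⧸ P) ℓ (Ideal.quotientMap P _ hle)
  refine ⟨b, fun x => ?_⟩
  have h := hb (Ideal.Quotient.mk P x)
  rw [Ideal.quotientMap_mk, ← map_pow, Ideal.Quotient.eq] at h
  exact h

/-- Powers of a Frobenius element act as powers of the Frobenius map modulo the maximal ideal. -/
theorem fd_frobenius_pow {L : Type*} [Field L] [Algebra ℚ L] (A : ValuationSubring L)
    (σ : L ≃ₐ[ℚ] L) (ℓ : ℕ) (hσ : A.IsFrobeniusAt σ ℓ) (b : ℕ) (x : L) (hx : x ∈ A) :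
    (σ ^ b) x - x ^ (ℓ ^ b) ∈ A.nonunits := by
  obtain ⟨hdec, h⟩ := hσ
  have key : ∀ (b : ℕ) (y : IsLocalRing.ResidueField A),
      ((⟨σ, hdec⟩ : A.decompositionSubgroup ℚ) ^ b) • y = y ^ (ℓ ^ b) := by
    intro b
    induction b with
    | zero => intro y; simp
    | succ n ih =>
      intro y
      rw [pow_succ, mul_smul, h, ih, ← pow_mul, pow_succ']
  have h1 := key b (IsLocalRing.residue A ⟨x, hx⟩)
  rw [← IsLocalRing.ResidueField.residue_smul, ← map_pow, ← sub_eq_zero, ← map_sub,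
    IsLocalRing.residue_eq_zero_iff, ← A.coe_mem_nonunits_iff] at h1
  exact h1

/-- **Frobenius density**, from the finite-level statement. -/
theorem frobeniusDensity_of_decompDensity (H : DecompDensity) : FrobeniusDensity := by
  intro F hF g B
  have hgal := Lib.Frobenius.isGalois_algebraicClosure inferInstance
  let E : IntermediateField ℚ (AlgebraicClosure ℚ) :=
    IntermediateField.normalClosure ℚ F (AlgebraicClosure ℚ)
  have hFE : F ≤ E := IntermediateField.le_normalClosure F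
  have hfd : FiniteDimensional ℚ E := normalClosure.is_finiteDimensional ℚ F (AlgebraicClosure ℚ)
  have hnor : Normal ℚ E := normalClosure.normal ℚ F (AlgebraicClosure ℚ)
  have hnf : NumberField E := { to_charZero := inferInstance, to_finiteDimensional := hfd }
  have hgalE : IsGalois ℚ E := { }
  obtain ⟨N₀, hN₀, hin⟩ := fd_exists_inertia_trivial E
  set N : ℕ := N₀ * ∏ t ∈ B, (if t = 0 then 1 else t) with hNdef
  have hN : N ≠ 0 := by
    rw [hNdef]
    refine mul_ne_zero hN₀ (Finset.prod_ne_zero_iff.mpr fun t _ => ?_)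
    split_ifs with h
    · exact one_ne_zero
    · exact h
  set g' : E ≃ₐ[ℚ] E := AlgEquiv.restrictNormalHom E g with hg'
  obtain ⟨P, hPp, hP0, hgP, hNP⟩ := H E g' N hN
  have hPmax : P.IsMaximal := hPp.isMaximal hP0
  obtain ⟨ℓ, hℓ, hℓP⟩ := fd_exists_prime_mem E P hP0
  obtain ⟨A, hA⟩ := CFT.Lift.exists_above (L := AlgebraicClosure ℚ) P
  have hAℓ : A.LiesOverPrime ℓ := by
    have := (hA (ℓ : 𝓞 E)).mp hℓP
    change (ℓ : AlgebraicClosure ℚ) ∈ A.nonunits
    simpa using this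
  obtain ⟨σ, hσ⟩ := Lib.Frobenius.exists_isFrobeniusAt A hℓ hAℓ
  obtain ⟨b, hb⟩ := fd_exists_pow_of_stab E P hP0 ℓ hℓ hℓP g' hgP
  have hdvd : ∀ m : ℕ, m ∣ N → (m : 𝓞 E) ∉ P := by
    intro m hm hmP
    obtain ⟨c, hc⟩ := hm
    apply hNP
    rw [hc, Nat.cast_mul]
    exact P.mul_mem_right _ hmP
  refine ⟨ℓ, A, σ, b, hℓ, ?_, hAℓ, hσ, ?_⟩
  · intro hℓB
    refine hdvd ℓ ?_ hℓP
    rw [hNdef]
    refine Dvd.dvd.mul_left ?_ _
    have := Finset.dvd_prod_of_mem (fun t => if t = 0 then 1 else t) hℓB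
    simpa [hℓ.ne_zero] using this
  · set σ' : E ≃ₐ[ℚ] E := AlgEquiv.restrictNormalHom E σ with hσ'
    have hpow : σ' ^ b = AlgEquiv.restrictNormalHom E (σ ^ b) := by rw [map_pow]
    have h1 : ∀ x : 𝓞 E, (σ' ^ b) • x - x ^ (ℓ ^ b) ∈ P := by
      intro x
      rw [hA]
      have hx : algebraMap E (AlgebraicClosure ℚ) (x : E) ∈ A :=
        Lib.Frobenius.mem_of_isIntegral A
          (map_isIntegral_int (algebraMap E (AlgebraicClosure ℚ)) (RingOfIntegers.isIntegral_coe x))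
      have h := fd_frobenius_pow A σ ℓ hσ b _ hx
      rw [← CFT.Lift.restrict_apply, ← hpow] at h
      have e : ((σ' ^ b • x - x ^ (ℓ ^ b) : 𝓞 E) : E) = (σ' ^ b) (x : E) - (x : E) ^ (ℓ ^ b) := rfl
      rw [e, map_sub, map_pow]
      exact h
    have h2 : g'⁻¹ * σ' ^ b = 1 := by
      refine hin P (hdvd N₀ (Dvd.intro _ rfl)) _ fun x => ?_
      have h3 : (σ' ^ b) • x - g' • x ∈ P := by
        have := P.sub_mem (h1 x) (hb x)
        simpa using this
      have h4 := Ideal.smul_mem_pointwise_smul g'⁻¹ _ P h3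
      have h5 : g'⁻¹ • P = P := by rw [inv_smul_eq_iff, hgP]
      rw [h5, smul_sub, inv_smul_smul, ← mul_smul] at h4
      exact h4
    have h6 : σ' ^ b = g' := by
      rw [inv_mul_eq_one] at h2
      exact h2.symm
    intro x hx
    have h7 := CFT.Lift.restrict_apply (Ω := E) (σ ^ b) ⟨x, hFE hx⟩
    have h8 := CFT.Lift.restrict_apply (Ω := E) g ⟨x, hFE hx⟩
    rw [← hpow, h6] at h7
    exact h7.symm.trans h8

end Fermat.Agent.GAL
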