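import Mathlib
import Fermat.Agent.GAL.FrobDensityCore
import Fermat.Agent.Lib.FrobDensity.Basic

/-!
# Adapters: two finite-level forms of the Frobenius density theorem imply `DecompDensity`
-/

set_option autoImplicit false

namespace Fermat.Agent.GAL

open NumberField IsDedekindDomain
open scoped Pointwise

/-- Cyclic extensions of number fields have inert primes outside any finite set. -/
def InertDensity : Prop :=
  ∀ (K L : Type) [Field K] [NumberField K] [Field L] [NumberField L] [Algebra K L] [IsGalois K L]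
    [IsCyclic (L ≃ₐ[K] L)] (B : Finset (Ideal (𝓞 K))),
    ∃ 𝔭 : Ideal (𝓞 K), 𝔭.IsPrime ∧ 𝔭 ≠ ⊥ ∧ 𝔭 ∉ B ∧ (𝔭.map (algebraMap (𝓞 K) (𝓞 L))).IsPrime

theorem decompDensity_of_inertDensity (H : InertDensity) : DecompDensity := by
  classical
  intro L _ _ _ g N hN
  let K : IntermediateField ℚ L := IntermediateField.fixedField (Subgroup.zpowers g)
  have hcyc : IsCyclic (L ≃ₐ[K] L) := by
    have h : K.fixingSubgroup = Subgroup.zpowers g := IntermediateField.fixingSubgroup_fixedField _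
    have : IsCyclic K.fixingSubgroup := by rw [h]; infer_instance
    exact isCyclic_of_surjective (IntermediateField.fixingSubgroupEquiv K)
      (IntermediateField.fixingSubgroupEquiv K).surjective
  have hN0 : Ideal.span {(N : 𝓞 K)} ≠ 0 := by
    rw [Ne, Ideal.zero_eq_bot, Ideal.span_singleton_eq_bot]
    exact_mod_cast hN
  obtain ⟨𝔭, h𝔭, h𝔭0, h𝔭B, hP⟩ := H K L
    (UniqueFactorizationMonoid.normalizedFactors (Ideal.span {(N : 𝓞 K)})).toFinset
  have hmax : 𝔭.IsMaximal := h𝔭.isMaximal h𝔭0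
  refine ⟨𝔭.map (algebraMap (𝓞 K) (𝓞 L)), hP, ?_, ?_, ?_⟩
  · rw [Ne, Ideal.map_eq_bot_iff_of_injective (FaithfulSMul.algebraMap_injective _ _)]
    exact h𝔭0
  · rw [Ideal.pointwise_smul_def, Ideal.map_map]
    congr 1
    ext x
    have hx : ((x : K) : L) ∈ K := (x : K).2
    exact (IntermediateField.mem_fixedField_iff _ _).mp hx g (Subgroup.mem_zpowers g)
  · intro hNP
    apply h𝔭B
    rw [Multiset.mem_toFinset, UniqueFactorizationMonoid.mem_normalizedFactors_iff hN0,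
      Ideal.prime_iff_isPrime h𝔭0, Ideal.dvd_span_singleton]
    refine ⟨h𝔭, ?_⟩
    have h1 : 𝔭 = (𝔭.map (algebraMap (𝓞 K) (𝓞 L))).comap (algebraMap (𝓞 K) (𝓞 L)) :=
      hmax.eq_of_le (Ideal.comap_ne_top _ hP.ne_top) Ideal.le_comap_map
    rw [h1, Ideal.mem_comap, map_natCast]
    exact hNP

open Fermat.Agent.Lib.FrobDensity in
/-- The finite-level statement of `Lib/FrobDensity` implies `DecompDensity`. -/
theorem decompDensity_of_finiteLevel
    (H : ∀ (L : Type) [Field L] [NumberField L] [IsGalois ℚ L] (g : L ≃ₐ[ℚ] L) (N : ℕ), N ≠ 0 →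
      ∃ w : HeightOneSpectrum (𝓞 L), ¬ ell L w ∣ N ∧ w.asIdeal.inertia (L ≃ₐ[ℚ] L) = ⊥ ∧
        Subgroup.zpowers (frob L (L ≃ₐ[ℚ] L) w) = Subgroup.zpowers g) : DecompDensity := by
  intro L _ _ _ g N hN
  obtain ⟨w, hwN, -, hz⟩ := H L g N hN
  refine ⟨w.asIdeal, w.isPrime, w.ne_bot, ?_, ?_⟩
  · have h1 : g ∈ Subgroup.zpowers (frob L (L ≃ₐ[ℚ] L) w) := hz ▸ Subgroup.mem_zpowers g
    have h2 : Subgroup.zpowers (frob L (L ≃ₐ[ℚ] L) w) ≤
        MulAction.stabilizer (L ≃ₐ[ℚ] L) w.asIdeal := by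
      rw [Subgroup.zpowers_le]
      exact IsArithFrobAt.arithFrobAt_mem_stabilizer ℤ (L ≃ₐ[ℚ] L) w.asIdeal
    exact MulAction.mem_stabilizer_iff.mp (h2 h1)
  · rw [natCast_mem_iff]
    exact hwN

end Fermat.Agent.GAL
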